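/-
P-S56 (Taylor-Wiles primes), block (D)/(E) (helper64): the SELECTION OF THE FROBENIUS ELEMENT,
elementary form (note 1368).  Mathlib only.

Abstract part:
* `exists_mul_not_mem_range` : `σ`-selection.  `X` an irreducible `k[Γ]`-module, `N ⊴ Γ` acting
  trivially on `X`, `x : Γ → X` a 1-cocycle with `x|_N ≠ 0`, `σ₀ ∈ Γ` with `(σ₀ - 1) X ≠ X`.  Then
  `x (ν σ₀) ∉ (σ₀ - 1) X` for some `ν ∈ N`.  (No analysis of the image of the representation:
  `W := x(N)` is a `Γ`-stable subgroup, and `W ⊆ (σ₀ - 1) X` would force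
  `W ⊆ ⋂_γ γ (σ₀ - 1) X = 0`.)

Matrix part (`r : Γ →* GL (Fin 2) k`, `2 ≠ 0` in `k`, `K ⊇ k` algebraically closed,
`Irr2 (bc K r)` := the restriction of `r ⊗ K` to every subgroup of index `≤ 2` is irreducible, i.e.
the hypotheses `habs` + `hTW` of the frozen S56):
* `no_stable_line`, `no_stable_line_base` : no `Γ`-stable line in `ad⁰` (traceless matrices,
  conjugation action `cj`);
* `ad0_irreducible` : `ad⁰` is an irreducible `k[Γ]`-module (a stable plane gives a stable line
  through the bracket and the trace form);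
* `exists_trace_sq_ne_four` : a normal subgroup `Γ'` with abelian quotient and `det r = 1` on `Γ'`
  contains `σ₀` with `tr (r σ₀)² ≠ 4`, i.e. with DISTINCT eigenvalues;
* `adRep r ω` : the twisted adjoint representation on `ad⁰`, and `exists_good_sigma` : the
  combination = the group-theoretic content of (KILL) of note 1368 / helper72's contract.
-/
import Mathlib

set_option autoImplicit false

open Matrix

namespace Fermat.Agent.S56x.Kill

section Abstract

variable {Γ : Type*} [Group Γ] {k : Type*} [Field k] {X : Type*} [AddCommGroup X] [Module k X]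

/-- a 1-cocycle vanishes at `1`. -/
theorem cocycle_one (π : Γ →* (X →ₗ[k] X)) (x : Γ → X)
    (hx : ∀ g h, x (g * h) = x g + π g (x h)) : x 1 = 0 := by
  have h := hx 1 1
  rw [mul_one, map_one, Module.End.one_apply] at h
  exact left_eq_add.mp h

/-- on a normal subgroup acting trivially, a 1-cocycle is equivariant for conjugation. -/
theorem cocycle_conj (π : Γ →* (X →ₗ[k] X)) (x : Γ → X)
    (hx : ∀ g h, x (g * h) = x g + π g (x h)) (N : Subgroup Γ)
    (hN : ∀ ν ∈ N, π ν = 1) (γ : Γ) {ν : Γ} (hν : ν ∈ N) :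
    x (γ * ν * γ⁻¹) = π γ (x ν) := by
  have h1 : x (γ * γ⁻¹) = x γ + π γ (x γ⁻¹) := hx γ γ⁻¹
  rw [mul_inv_cancel, cocycle_one π x hx] at h1
  rw [mul_assoc, hx γ (ν * γ⁻¹), hx ν γ⁻¹, hN ν hν, Module.End.one_apply, map_add, ← add_assoc,
    add_right_comm, ← h1, zero_add]

/-- **`σ`-selection.** -/
theorem exists_mul_not_mem_range (π : Γ →* (X →ₗ[k] X))
    (hirr : ∀ U : Submodule k X, (∀ γ : Γ, ∀ u ∈ U, π γ u ∈ U) → U = ⊥ ∨ U = ⊤)
    (N : Subgroup Γ) [N.Normal] (hN : ∀ ν ∈ N, π ν = 1)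
    (x : Γ → X) (hx : ∀ g h, x (g * h) = x g + π g (x h))
    (hxN : ∃ ν ∈ N, x ν ≠ 0)
    (σ₀ : Γ) (hσ₀ : LinearMap.range (π σ₀ - 1) ≠ ⊤) :
    ∃ ν ∈ N, x (ν * σ₀) ∉ LinearMap.range (π σ₀ - 1) := by
  set H₀ : Submodule k X := LinearMap.range (π σ₀ - 1) with hH₀
  -- the largest `Γ`-stable subspace of `H₀`
  let U : Submodule k X := ⨅ γ : Γ, H₀.comap (π γ)
  have hU_mem : ∀ w : X, w ∈ U ↔ ∀ γ : Γ, π γ w ∈ H₀ := by
    intro w
    simp only [U, Submodule.mem_iInf, Submodule.mem_comap]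
  have hU_stable : ∀ γ : Γ, ∀ u ∈ U, π γ u ∈ U := by
    intro γ u hu
    rw [hU_mem] at hu ⊢
    intro γ'
    have := hu (γ' * γ)
    rwa [map_mul, Module.End.mul_apply] at this
  have hU_le : U ≤ H₀ := by
    intro w hw
    have := (hU_mem w).mp hw 1
    rwa [map_one, Module.End.one_apply] at this
  have hU_bot : U = ⊥ := by
    rcases hirr U hU_stable with h | h
    · exact h
    · exact absurd (top_le_iff.mp (h ▸ hU_le)) hσ₀
  -- some value on `N` is outside `H₀`
  have hex : ∃ ν ∈ N, x ν ∉ H₀ := by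
    by_contra hcon
    push Not at hcon
    obtain ⟨ν, hν, hxν⟩ := hxN
    have : x ν ∈ U := by
      rw [hU_mem]
      intro γ
      rw [← cocycle_conj π x hx N hN γ hν]
      exact hcon _ (Subgroup.Normal.conj_mem inferInstance ν hν γ)
    rw [hU_bot, Submodule.mem_bot] at this
    exact hxν this
  obtain ⟨ν, hν, hxν⟩ := hex
  by_cases h0 : x σ₀ ∈ H₀
  · refine ⟨ν, hν, fun hmem => hxν ?_⟩
    rw [hx ν σ₀, hN ν hν, Module.End.one_apply] at hmem
    exact (Submodule.add_mem_iff_left H₀ h0).mp hmem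
  · exact ⟨1, N.one_mem, by rwa [one_mul]⟩

end Abstract


/-! ### `2 × 2` matrices -/

section Mat

variable {K : Type*} [Field K]


theorem mul_self_of_trace_zero (m : Matrix (Fin 2) (Fin 2) K) (hm : m.trace = 0) :
    m * m = (-m.det) • (1 : Matrix (Fin 2) (Fin 2) K) := by
  rw [trace_fin_two] at hm
  have h11 : m 1 1 = - m 0 0 := by linear_combination hm
  ext i j
  fin_cases i <;> fin_cases j <;>
    simp [Matrix.mul_apply, Fin.sum_univ_two, det_fin_two, h11] <;> ring

/-- the centraliser of a nonzero traceless matrix inside the traceless matrices is its line. -/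
theorem exists_smul_of_commute (h2 : (2 : K) ≠ 0) {m x : Matrix (Fin 2) (Fin 2) K}
    (hm : m.trace = 0) (hm0 : m ≠ 0) (hx : x.trace = 0) (hc : x * m = m * x) :
    ∃ c : K, x = c • m := by
  rw [trace_fin_two] at hm hx
  have hm11 : m 1 1 = - m 0 0 := by linear_combination hm
  have hx11 : x 1 1 = - x 0 0 := by linear_combination hx
  have e00 := congrFun (congrFun hc 0) 0
  have e01 := congrFun (congrFun hc 0) 1
  have e10 := congrFun (congrFun hc 1) 0
  simp only [Matrix.mul_apply, Fin.sum_univ_two, hm11, hx11] at e00 e01 e10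
  have k1 : x 0 1 * m 1 0 = m 0 1 * x 1 0 := by linear_combination e00
  have k2 : x 0 0 * m 0 1 = m 0 0 * x 0 1 := by
    have : (2 : K) * (x 0 0 * m 0 1 - m 0 0 * x 0 1) = 0 := by linear_combination e01
    have := (mul_eq_zero.mp this).resolve_left h2
    linear_combination this
  have k3 : x 1 0 * m 0 0 = x 0 0 * m 1 0 := by
    have : (2 : K) * (x 1 0 * m 0 0 - x 0 0 * m 1 0) = 0 := by linear_combination e10
    have := (mul_eq_zero.mp this).resolve_left h2
    linear_combination this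
  by_cases ha : m 0 0 = 0
  · by_cases hb : m 0 1 = 0
    · have hcc : m 1 0 ≠ 0 := by
        intro hcc
        apply hm0
        ext i j
        fin_cases i <;> fin_cases j <;> simp [ha, hb, hcc, hm11]
      refine ⟨x 1 0 / m 1 0, ?_⟩
      have hp : x 0 0 = 0 := by
        have : x 0 0 * m 1 0 = 0 := by rw [← k3, ha, mul_zero]
        exact (mul_eq_zero.mp this).resolve_right hcc
      have hq : x 0 1 = 0 := by
        have : x 0 1 * m 1 0 = 0 := by rw [k1, hb, zero_mul]
        exact (mul_eq_zero.mp this).resolve_right hcc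
      ext i j
      fin_cases i <;> fin_cases j <;> simp [ha, hb, hp, hq, hm11, hx11, hcc]
    · refine ⟨x 0 1 / m 0 1, ?_⟩
      have hp : x 0 0 = 0 := by
        have : x 0 0 * m 0 1 = 0 := by rw [k2, ha, zero_mul]
        exact (mul_eq_zero.mp this).resolve_right hb
      ext i j
      fin_cases i <;> fin_cases j <;> simp [ha, hp, hm11, hx11, hb]
      field_simp
      linear_combination -k1
  · refine ⟨x 0 0 / m 0 0, ?_⟩
    ext i j
    fin_cases i <;> fin_cases j <;> simp [hm11, hx11, ha] <;> field_simp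
    · linear_combination -k2
    · linear_combination k3


/-- the "triple product" identity of `sl₂`. -/
theorem bracket_bracket {x y z : Matrix (Fin 2) (Fin 2) K}
    (hx : x.trace = 0) (hy : y.trace = 0) (hz : z.trace = 0) :
    x * (y * z - z * y) - (y * z - z * y) * x
      = (2 : K) • ((x * y).trace • z - (x * z).trace • y) := by
  rw [trace_fin_two] at hx hy hz
  have hx11 : x 1 1 = - x 0 0 := by linear_combination hx
  have hy11 : y 1 1 = - y 0 0 := by linear_combination hy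
  have hz11 : z 1 1 = - z 0 0 := by linear_combination hz
  ext i j
  fin_cases i <;> fin_cases j <;>
    simp [Matrix.mul_apply, Fin.sum_univ_two, trace_fin_two, hx11, hy11, hz11] <;> ring

theorem trace_bracket (y z : Matrix (Fin 2) (Fin 2) K) : (y * z - z * y).trace = 0 := by
  rw [trace_sub, trace_mul_comm, sub_self]

/-- the traceless matrices. -/
def ad0 (K : Type*) [Field K] : Submodule K (Matrix (Fin 2) (Fin 2) K) :=
  LinearMap.ker (Matrix.traceLinearMap (Fin 2) K K)

theorem mem_ad0 {m : Matrix (Fin 2) (Fin 2) K} : m ∈ ad0 K ↔ m.trace = 0 := by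
  rw [ad0, LinearMap.mem_ker]
  rfl

/-- a proper subspace of `ad0` is orthogonal (for the trace form) to a nonzero element. -/
theorem exists_orthogonal (h2 : (2 : K) ≠ 0) (P : Submodule K (Matrix (Fin 2) (Fin 2) K))
    (hP : P ≤ ad0 K) (hP' : P ≠ ad0 K) :
    ∃ m₀ : Matrix (Fin 2) (Fin 2) K, m₀ ≠ 0 ∧ m₀.trace = 0 ∧ ∀ u ∈ P, (m₀ * u).trace = 0 := by
  have hlt : Submodule.comap (ad0 K).subtype P < ⊤ := by
    rw [lt_top_iff_ne_top]
    intro h
    apply hP'
    refine le_antisymm hP fun u hu => ?_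
    have : (⟨u, hu⟩ : ad0 K) ∈ Submodule.comap (ad0 K).subtype P := by rw [h]; trivial
    exact this
  obtain ⟨f, hf0, hf⟩ := Submodule.exists_le_ker_of_lt_top _ hlt
  have hE : (!![0, 1; 0, 0] : Matrix (Fin 2) (Fin 2) K) ∈ ad0 K := by
    rw [mem_ad0, trace_fin_two]; simp
  have hH : (!![1, 0; 0, -1] : Matrix (Fin 2) (Fin 2) K) ∈ ad0 K := by
    rw [mem_ad0, trace_fin_two]; simp
  have hF : (!![0, 0; 1, 0] : Matrix (Fin 2) (Fin 2) K) ∈ ad0 K := by
    rw [mem_ad0, trace_fin_two]; simp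
  set fE := f ⟨_, hE⟩ with hfE
  set fH := f ⟨_, hH⟩ with hfH
  set fF := f ⟨_, hF⟩ with hfF
  have key : ∀ (u : Matrix (Fin 2) (Fin 2) K) (hu : u ∈ ad0 K),
      f ⟨u, hu⟩ = u 0 0 * fH + u 0 1 * fE + u 1 0 * fF := by
    intro u hu
    have hu' := mem_ad0.mp hu
    rw [trace_fin_two] at hu'
    have hu11 : u 1 1 = - u 0 0 := by linear_combination hu'
    have : (⟨u, hu⟩ : ad0 K) = u 0 0 • ⟨_, hH⟩ + u 0 1 • ⟨_, hE⟩ + u 1 0 • ⟨_, hF⟩ := by
      apply Subtype.ext
      simp only [Submodule.coe_add, Submodule.coe_smul]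
      ext i j
      fin_cases i <;> fin_cases j <;> simp [hu11]
    rw [this, map_add, map_add, map_smul, map_smul, map_smul]
    simp only [smul_eq_mul]
    rfl
  refine ⟨!![fH, 2 * fF; 2 * fE, -fH], ?_, ?_, ?_⟩
  · intro h0
    apply hf0
    have e1 : fH = 0 := by simpa using congrFun (congrFun h0 0) 0
    have e2 : 2 * fF = 0 := by simpa using congrFun (congrFun h0 0) 1
    have e3 : 2 * fE = 0 := by simpa using congrFun (congrFun h0 1) 0
    have e2' : fF = 0 := (mul_eq_zero.mp e2).resolve_left h2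
    have e3' : fE = 0 := (mul_eq_zero.mp e3).resolve_left h2
    ext ⟨u, hu⟩
    rw [key u hu, e1, e2', e3']
    simp
  · rw [trace_fin_two]; simp
  · intro u hu
    have hu0 : u ∈ ad0 K := hP hu
    have h1 : f ⟨u, hu0⟩ = 0 :=
      hf (show (⟨u, hu0⟩ : ad0 K) ∈ Submodule.comap (ad0 K).subtype P from hu)
    rw [key u hu0] at h1
    have hu' := mem_ad0.mp hu0
    rw [trace_fin_two] at hu'
    have hu11 : u 1 1 = - u 0 0 := by linear_combination hu'
    have h3 : (!![fH, 2 * fF; 2 * fE, -fH] * u).trace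
        = 2 * (u 0 0 * fH + u 0 1 * fE + u 1 0 * fF) := by
      rw [trace_fin_two]
      simp only [Matrix.mul_apply, Fin.sum_univ_two, hu11]
      simp
      ring
    rw [h3, h1, mul_zero]


variable {Γ : Type*} [Group Γ]

/-- a subgroup whose complement multiplies into it has index `1` or `2`. -/
theorem index_eq_one_or_two (H : Subgroup Γ) (h : ∀ a b : Γ, a ∉ H → b ∉ H → a * b ∈ H) :
    H.index = 1 ∨ H.index = 2 := by
  by_cases htop : H = ⊤
  · exact Or.inl (Subgroup.index_eq_one.mpr htop)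
  · right
    obtain ⟨a, ha⟩ : ∃ a : Γ, a ∉ H := by
      by_contra hcon
      push Not at hcon
      exact htop (Subgroup.eq_top_iff' H |>.mpr hcon)
    rw [Subgroup.index_eq_two_iff]
    refine ⟨a, fun b => ?_⟩
    by_cases hb : b ∈ H
    · refine Or.inr ⟨hb, fun hba => ha ?_⟩
      have := H.mul_mem (H.inv_mem hb) hba
      rwa [inv_mul_cancel_left] at this
    · exact Or.inl ⟨h b a hb ha, hb⟩

/-- absolute irreducibility of the restrictions to the subgroups of index `≤ 2`. -/
def Irr2 (rK : Γ →* GL (Fin 2) K) : Prop :=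
  ∀ H : Subgroup Γ, (H.index = 1 ∨ H.index = 2) → ∀ W : Submodule K (Fin 2 → K),
    (∀ σ ∈ H, ∀ x ∈ W, (rK σ : Matrix (Fin 2) (Fin 2) K).mulVec x ∈ W) → W = ⊥ ∨ W = ⊤

/-- the conjugation action on matrices. -/
def cj (g : GL (Fin 2) K) (m : Matrix (Fin 2) (Fin 2) K) : Matrix (Fin 2) (Fin 2) K :=
  (g : Matrix (Fin 2) (Fin 2) K) * m * ((g⁻¹ : GL (Fin 2) K) : Matrix (Fin 2) (Fin 2) K)

theorem cj_one (m : Matrix (Fin 2) (Fin 2) K) : cj 1 m = m := by
  simp [cj]

theorem cj_mul (g h : GL (Fin 2) K) (m : Matrix (Fin 2) (Fin 2) K) :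
    cj (g * h) m = cj g (cj h m) := by
  simp only [cj, _root_.mul_inv_rev, Units.val_mul]
  simp only [Matrix.mul_assoc]

theorem cj_smul (g : GL (Fin 2) K) (c : K) (m : Matrix (Fin 2) (Fin 2) K) :
    cj g (c • m) = c • cj g m := by
  simp [cj]

theorem cj_neg (g : GL (Fin 2) K) (m : Matrix (Fin 2) (Fin 2) K) : cj g (-m) = - cj g m := by
  simp [cj]

theorem cj_add (g : GL (Fin 2) K) (m m' : Matrix (Fin 2) (Fin 2) K) :
    cj g (m + m') = cj g m + cj g m' := by
  simp [cj, Matrix.mul_add, Matrix.add_mul]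

theorem cj_sub (g : GL (Fin 2) K) (m m' : Matrix (Fin 2) (Fin 2) K) :
    cj g (m - m') = cj g m - cj g m' := by
  simp [cj, Matrix.mul_sub, Matrix.sub_mul]

theorem cj_mul_mul (g : GL (Fin 2) K) (m m' : Matrix (Fin 2) (Fin 2) K) :
    cj g (m * m') = cj g m * cj g m' := by
  simp only [cj]
  have : ((g⁻¹ : GL (Fin 2) K) : Matrix (Fin 2) (Fin 2) K) * (g : Matrix (Fin 2) (Fin 2) K) = 1 := by
    rw [← Units.val_mul, inv_mul_cancel, Units.val_one]
  calc (g : Matrix (Fin 2) (Fin 2) K) * (m * m') * ((g⁻¹ : GL (Fin 2) K) : Matrix (Fin 2) (Fin 2) K)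
      = (g : Matrix (Fin 2) (Fin 2) K) * m * (1 : Matrix (Fin 2) (Fin 2) K) * m' *
          ((g⁻¹ : GL (Fin 2) K) : Matrix (Fin 2) (Fin 2) K) := by
        rw [Matrix.mul_one]; simp only [Matrix.mul_assoc]
    _ = _ := by rw [← this]; simp only [Matrix.mul_assoc]

theorem cj_one_mat (g : GL (Fin 2) K) : cj g (1 : Matrix (Fin 2) (Fin 2) K) = 1 := by
  simp only [cj, Matrix.mul_one]
  rw [← Units.val_mul, mul_inv_cancel, Units.val_one]

theorem trace_cj (g : GL (Fin 2) K) (m : Matrix (Fin 2) (Fin 2) K) : (cj g m).trace = m.trace := by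
  rw [cj, Matrix.trace_mul_comm, ← Matrix.mul_assoc, ← Units.val_mul, inv_mul_cancel, Units.val_one,
    Matrix.one_mul]

theorem det_cj (g : GL (Fin 2) K) (m : Matrix (Fin 2) (Fin 2) K) : (cj g m).det = m.det := by
  rw [cj, Matrix.det_mul, Matrix.det_mul, mul_right_comm, ← Matrix.det_mul, ← Units.val_mul,
    mul_inv_cancel, Units.val_one, Matrix.det_one, one_mul]

theorem cj_eq_iff (g : GL (Fin 2) K) (m m' : Matrix (Fin 2) (Fin 2) K) :
    cj g m = m' ↔ (g : Matrix (Fin 2) (Fin 2) K) * m = m' * (g : Matrix (Fin 2) (Fin 2) K) := by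
  have h1 : ((g⁻¹ : GL (Fin 2) K) : Matrix (Fin 2) (Fin 2) K) * (g : Matrix (Fin 2) (Fin 2) K) = 1 := by
    rw [← Units.val_mul, inv_mul_cancel, Units.val_one]
  have h2 : (g : Matrix (Fin 2) (Fin 2) K) * ((g⁻¹ : GL (Fin 2) K) : Matrix (Fin 2) (Fin 2) K) = 1 := by
    rw [← Units.val_mul, mul_inv_cancel, Units.val_one]
  constructor
  · intro h
    rw [← h, cj, Matrix.mul_assoc, Matrix.mul_assoc, h1, Matrix.mul_one]
  · intro h
    rw [cj, h, Matrix.mul_assoc, h2, Matrix.mul_one]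

theorem cj_ne_zero (g : GL (Fin 2) K) {m : Matrix (Fin 2) (Fin 2) K} (hm : m ≠ 0) : cj g m ≠ 0 := by
  intro h
  apply hm
  have := congrArg (cj g⁻¹) h
  rw [← cj_mul, inv_mul_cancel, cj_one] at this
  rw [this]
  simp [cj]


/-- a matrix killing every vector is zero. -/
theorem eq_zero_of_mulVec_eq_zero {A : Matrix (Fin 2) (Fin 2) K} (h : ∀ x : Fin 2 → K, A.mulVec x = 0) :
    A = 0 := by
  have := Matrix.toLin'.injective (show Matrix.toLin' A = Matrix.toLin' 0 from
    LinearMap.ext fun x => by rw [Matrix.toLin'_apply, h, map_zero, LinearMap.zero_apply])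
  exact this

/-- **No stable line in `ad⁰`**, over an algebraically closed field. -/
theorem no_stable_line [IsAlgClosed K] (h2 : (2 : K) ≠ 0) (rK : Γ →* GL (Fin 2) K) (hirr : Irr2 rK)
    (m : Matrix (Fin 2) (Fin 2) K) (hm0 : m ≠ 0) (hm : m.trace = 0)
    (hstab : ∀ γ : Γ, ∃ c : K, cj (rK γ) m = c • m) : False := by
  obtain ⟨e, he⟩ := IsAlgClosed.exists_eq_mul_self (-m.det)
  have hsq : m * m = (e * e) • (1 : Matrix (Fin 2) (Fin 2) K) := by
    rw [mul_self_of_trace_zero m hm, he]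
  -- `m` is not a scalar
  have hns : ∀ c : K, m ≠ c • (1 : Matrix (Fin 2) (Fin 2) K) := by
    intro c hc
    have h1 : m.trace = 2 * c := by
      rw [hc, trace_fin_two]; simp; ring
    rw [hm] at h1
    have hc0 : c = 0 := by
      rcases mul_eq_zero.mp h1.symm with h | h
      · exact absurd h h2
      · exact h
    apply hm0
    rw [hc, hc0, zero_smul]
  -- the eigenspace
  set A : Matrix (Fin 2) (Fin 2) K := m - e • 1 with hA
  set B : Matrix (Fin 2) (Fin 2) K := m + e • 1 with hB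
  have hAB : A * B = 0 := by
    rw [hA, hB, Matrix.sub_mul, Matrix.mul_add, Matrix.mul_add, hsq]
    simp only [Matrix.mul_smul, Matrix.smul_mul, Matrix.mul_one, Matrix.one_mul, smul_smul]
    abel
  have hA0 : A ≠ 0 := fun h => hns e (sub_eq_zero.mp h)
  have hB0 : B ≠ 0 := fun h => hns (-e) (by rw [neg_smul]; exact eq_neg_of_add_eq_zero_left h)
  let W : Submodule K (Fin 2 → K) := LinearMap.ker A.mulVecLin
  have hWmem : ∀ x, x ∈ W ↔ A.mulVec x = 0 := fun x => by
    simp only [W, LinearMap.mem_ker, Matrix.mulVecLin_apply]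
  have hWtop : W ≠ ⊤ := by
    intro h
    apply hA0
    apply eq_zero_of_mulVec_eq_zero
    intro x
    rw [← hWmem, h]
    trivial
  have hWbot : W ≠ ⊥ := by
    intro h
    apply hB0
    apply eq_zero_of_mulVec_eq_zero
    intro x
    have : B.mulVec x ∈ W := by
      rw [hWmem, Matrix.mulVec_mulVec, hAB, Matrix.zero_mulVec]
    rw [h, Submodule.mem_bot] at this
    exact this
  -- `W` is stable under every `γ` with `cj γ m = c • m`, `c ≠ 0`, `c • e = e`
  have hstabW : ∀ γ : Γ, ∀ c : K, cj (rK γ) m = c • m → c * e = e → c ≠ 0 →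
      ∀ x ∈ W, (rK γ : Matrix (Fin 2) (Fin 2) K).mulVec x ∈ W := by
    intro γ c hc hce hc0 x hx
    rw [hWmem] at hx ⊢
    rw [cj_eq_iff] at hc
    -- `A (g x) = c⁻¹ • g (A x)`
    have h1 : c • (A * (rK γ : Matrix (Fin 2) (Fin 2) K)) = (rK γ : Matrix (Fin 2) (Fin 2) K) * A := by
      rw [hA, Matrix.sub_mul, Matrix.mul_sub, hc, smul_sub, Matrix.smul_mul, Matrix.smul_mul,
        Matrix.mul_smul, Matrix.one_mul, Matrix.mul_one, smul_smul, hce]
    have h3 : c • (A.mulVec ((rK γ : Matrix (Fin 2) (Fin 2) K).mulVec x)) = 0 := by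
      rw [Matrix.mulVec_mulVec, ← Matrix.smul_mulVec, h1, ← Matrix.mulVec_mulVec, hx,
        Matrix.mulVec_zero]
    exact (smul_eq_zero.mp h3).resolve_left hc0
  by_cases he0 : e = 0
  · -- nilpotent case: `W = ker m` is stable under everything
    have hc0 : ∀ (γ : Γ) (c : K), cj (rK γ) m = c • m → c ≠ 0 := by
      intro γ c hc h0
      rw [h0, zero_smul] at hc
      exact cj_ne_zero _ hm0 hc
    have : W = ⊥ ∨ W = ⊤ := by
      refine hirr ⊤ (Or.inl (Subgroup.index_eq_one.mpr rfl)) W fun σ _ x hx => ?_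
      obtain ⟨c, hc⟩ := hstab σ
      exact hstabW σ c hc (by rw [he0, mul_zero]) (hc0 σ c hc) x hx
    rcases this with h | h
    · exact hWbot h
    · exact hWtop h
  · -- semisimple case
    have hdet : m.det ≠ 0 := by
      intro h
      rw [h, neg_zero] at he
      exact he0 (mul_self_eq_zero.mp he.symm)
    have hpm : ∀ (γ : Γ) (c : K), cj (rK γ) m = c • m → c = 1 ∨ c = -1 := by
      intro γ c hc
      have h1 := congrArg Matrix.det hc
      rw [det_cj, Matrix.det_smul, Fintype.card_fin] at h1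
      have h3 : (c ^ 2 - 1) * m.det = 0 := by linear_combination -h1
      have h4 : c ^ 2 - 1 = 0 := (mul_eq_zero.mp h3).resolve_right hdet
      have h5 : (c - 1) * (c + 1) = 0 := by linear_combination h4
      rcases mul_eq_zero.mp h5 with h | h
      · exact Or.inl (sub_eq_zero.mp h)
      · exact Or.inr (eq_neg_of_add_eq_zero_left h)
    let H : Subgroup Γ :=
      { carrier := {γ | cj (rK γ) m = m}
        one_mem' := by
          show cj (rK 1) m = m
          rw [map_one, cj_one]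
        mul_mem' := by
          intro a b ha hb
          show cj (rK (a * b)) m = m
          rw [map_mul, cj_mul, show cj (rK b) m = m from hb, show cj (rK a) m = m from ha]
        inv_mem' := by
          intro a ha
          show cj (rK a⁻¹) m = m
          have h1 : cj (rK a) m = m := ha
          have := congrArg (cj (rK a⁻¹)) h1
          rw [← cj_mul, ← map_mul, inv_mul_cancel, map_one, cj_one] at this
          exact this.symm }
    have hHmem : ∀ γ, γ ∈ H ↔ cj (rK γ) m = m := fun γ => Iff.rfl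
    have hneg : ∀ γ, γ ∉ H → cj (rK γ) m = -m := by
      intro γ hγ
      obtain ⟨c, hc⟩ := hstab γ
      rcases hpm γ c hc with h | h
      · exfalso
        apply hγ
        rw [hHmem, hc, h, one_smul]
      · rw [hc, h, neg_smul, one_smul]
    have hidx : H.index = 1 ∨ H.index = 2 := by
      apply index_eq_one_or_two
      intro a b ha hb
      rw [hHmem, map_mul, cj_mul, hneg b hb, cj_neg, hneg a ha, neg_neg]
    have : W = ⊥ ∨ W = ⊤ := by
      refine hirr H hidx W fun σ hσ x hx => ?_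
      exact hstabW σ 1 (by rw [one_smul]; exact (hHmem σ).mp hσ) (one_mul e) one_ne_zero x hx
    rcases this with h | h
    · exact hWbot h
    · exact hWtop h


/-! ### descent to a subfield -/

section Descent

variable {k : Type*} [Field k] [Algebra k K]

/-- the base change of a matrix representation. -/
def bc (K : Type*) [Field K] [Algebra k K] (r : Γ →* GL (Fin 2) k) : Γ →* GL (Fin 2) K :=
  (Matrix.GeneralLinearGroup.map (algebraMap k K)).comp r

theorem coe_bc (r : Γ →* GL (Fin 2) k) (γ : Γ) :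
    ((bc K r γ : GL (Fin 2) K) : Matrix (Fin 2) (Fin 2) K)
      = (r γ : Matrix (Fin 2) (Fin 2) k).map (algebraMap k K) := rfl

theorem cj_bc (r : Γ →* GL (Fin 2) k) (γ : Γ) (m : Matrix (Fin 2) (Fin 2) k) :
    cj (bc K r γ) (m.map (algebraMap k K)) = (cj (r γ) m).map (algebraMap k K) := by
  have h : ((bc K r γ)⁻¹ : GL (Fin 2) K) = bc K r γ⁻¹ := (map_inv (bc K r) γ).symm
  rw [cj, cj, h, coe_bc, coe_bc, Matrix.map_mul, Matrix.map_mul, map_inv]

theorem map_ne_zero_of_ne_zero {m : Matrix (Fin 2) (Fin 2) k} (hm : m ≠ 0) :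
    m.map (algebraMap k K) ≠ 0 := by
  intro h
  apply hm
  ext i j
  have := congrFun (congrFun h i) j
  rw [Matrix.map_apply, Matrix.zero_apply] at this
  rw [Matrix.zero_apply]
  exact (map_eq_zero (algebraMap k K)).mp this

theorem trace_map_algebraMap (m : Matrix (Fin 2) (Fin 2) k) :
    (m.map (algebraMap k K)).trace = algebraMap k K m.trace := by
  rw [trace_fin_two, trace_fin_two, Matrix.map_apply, Matrix.map_apply, map_add]

theorem two_ne_zero_of (h2 : (2 : k) ≠ 0) : (2 : K) ≠ 0 := by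
  intro h
  apply h2
  have : algebraMap k K 2 = 0 := by rw [map_ofNat]; exact h
  exact (map_eq_zero (algebraMap k K)).mp this

/-- no stable line in `ad⁰` over `k`, from irreducibility over the algebraically closed `K`. -/
theorem no_stable_line_base [IsAlgClosed K] (h2 : (2 : k) ≠ 0) (r : Γ →* GL (Fin 2) k)
    (hirr : Irr2 (bc K r)) (m : Matrix (Fin 2) (Fin 2) k) (hm0 : m ≠ 0) (hm : m.trace = 0)
    (hstab : ∀ γ : Γ, ∃ c : k, cj (r γ) m = c • m) : False := by
  refine no_stable_line (two_ne_zero_of h2) (bc K r) hirr (m.map (algebraMap k K))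
    (map_ne_zero_of_ne_zero hm0) (by rw [trace_map_algebraMap, hm, map_zero]) fun γ => ?_
  obtain ⟨c, hc⟩ := hstab γ
  refine ⟨algebraMap k K c, ?_⟩
  rw [cj_bc, hc]
  ext i j
  simp [Matrix.map_apply, Matrix.smul_apply]

/-- **`ad⁰` is an irreducible `k[Γ]`-module.** -/
theorem ad0_irreducible [IsAlgClosed K] (h2 : (2 : k) ≠ 0) (r : Γ →* GL (Fin 2) k)
    (hirr : Irr2 (bc K r)) (U : Submodule k (Matrix (Fin 2) (Fin 2) k)) (hU : U ≤ ad0 k)
    (hstab : ∀ γ : Γ, ∀ u ∈ U, cj (r γ) u ∈ U) : U = ⊥ ∨ U = ad0 k := by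
  by_contra hcon
  push Not at hcon
  obtain ⟨hbot, htop⟩ := hcon
  obtain ⟨m₀, hm₀0, hm₀, horth⟩ := exists_orthogonal h2 U hU htop
  by_cases hcomm : ∀ u ∈ U, ∀ u' ∈ U, u * u' = u' * u
  · -- `U` is a line
    obtain ⟨u, hu, hu0⟩ := (Submodule.ne_bot_iff U).mp hbot
    refine no_stable_line_base (K := K) h2 r hirr u hu0 (mem_ad0.mp (hU hu)) fun γ => ?_
    have h1 : cj (r γ) u ∈ U := hstab γ u hu
    exact exists_smul_of_commute h2 (mem_ad0.mp (hU hu)) hu0 (mem_ad0.mp (hU h1))
      (hcomm _ h1 _ hu)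
  · push Not at hcomm
    obtain ⟨u, hu, u', hu', hne⟩ := hcomm
    set w := u * u' - u' * u with hw
    have hw0 : w ≠ 0 := fun h => hne (sub_eq_zero.mp h)
    -- every bracket of elements of `U` is a multiple of `m₀`
    have hbr : ∀ a ∈ U, ∀ b ∈ U, ∃ c : k, a * b - b * a = c • m₀ := by
      intro a ha b hb
      refine exists_smul_of_commute h2 hm₀ hm₀0 (trace_bracket a b) ?_
      have h := bracket_bracket hm₀ (mem_ad0.mp (hU ha)) (mem_ad0.mp (hU hb))
      rw [horth a ha, horth b hb, zero_smul, zero_smul, sub_zero, smul_zero] at h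
      exact (sub_eq_zero.mp h).symm
    obtain ⟨cw, hcw⟩ := hbr u hu u' hu'
    have hcw0 : cw ≠ 0 := by
      intro h
      rw [h, zero_smul] at hcw
      exact hw0 hcw
    refine no_stable_line_base (K := K) h2 r hirr w hw0 (trace_bracket u u') fun γ => ?_
    obtain ⟨c, hc⟩ := hbr _ (hstab γ u hu) _ (hstab γ u' hu')
    refine ⟨c * cw⁻¹, ?_⟩
    rw [hw, cj_sub, cj_mul_mul, cj_mul_mul, hc, hcw, smul_smul, mul_assoc,
      inv_mul_cancel₀ hcw0, mul_one]


/-- Cayley-Hamilton for `2 × 2` matrices. -/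
theorem mul_self_eq (g : Matrix (Fin 2) (Fin 2) k) :
    g * g = g.trace • g - g.det • (1 : Matrix (Fin 2) (Fin 2) k) := by
  ext i j
  fin_cases i <;> fin_cases j <;>
    simp [Matrix.mul_apply, Fin.sum_univ_two, det_fin_two, trace_fin_two] <;> ring

theorem four_ne_zero_of (h2 : (2 : k) ≠ 0) : (4 : k) ≠ 0 := by
  have : (4 : k) = 2 * 2 := by norm_num
  rw [this]
  exact mul_ne_zero h2 h2

/-- **Existence of an element with distinct eigenvalues** in a normal subgroup with abelian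
quotient on which the determinant is trivial. -/
theorem exists_trace_sq_ne_four [IsAlgClosed K] (h2 : (2 : k) ≠ 0) (r : Γ →* GL (Fin 2) k)
    (hirr : Irr2 (bc K r)) (Γ' : Subgroup Γ) [Γ'.Normal]
    (hab : ∀ a b : Γ, a * b * a⁻¹ * b⁻¹ ∈ Γ')
    (hdet : ∀ σ ∈ Γ', (r σ : Matrix (Fin 2) (Fin 2) k).det = 1) :
    ∃ σ ∈ Γ', (r σ : Matrix (Fin 2) (Fin 2) k).trace ^ 2 ≠ 4 := by
  by_contra hcon
  push Not at hcon
  have h4 := four_ne_zero_of h2
  -- the nilpotent parts of the squares
  let Nil : Γ → Matrix (Fin 2) (Fin 2) k := fun σ => (r (σ * σ) : Matrix (Fin 2) (Fin 2) k) - 1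
  have hNil : ∀ σ ∈ Γ', Nil σ
      = (r σ : Matrix (Fin 2) (Fin 2) k).trace •
        ((r σ : Matrix (Fin 2) (Fin 2) k)
          - ((r σ : Matrix (Fin 2) (Fin 2) k).trace / 2) • (1 : Matrix (Fin 2) (Fin 2) k)) := by
    intro σ hσ
    have ht := hcon σ hσ
    simp only [Nil]
    rw [map_mul, Units.val_mul, mul_self_eq, hdet σ hσ, smul_sub, smul_smul, one_smul]
    have : (r σ : Matrix (Fin 2) (Fin 2) k).trace * ((r σ : Matrix (Fin 2) (Fin 2) k).trace / 2)
        = 2 := by
      field_simp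
      linear_combination ht
    rw [this]
    have h21 : (2 : k) • (1 : Matrix (Fin 2) (Fin 2) k) = 1 + 1 := by rw [two_smul]
    rw [h21]
    abel
  have hNil_tr : ∀ σ ∈ Γ', (Nil σ).trace = 0 := by
    intro σ hσ
    rw [hNil σ hσ, Matrix.trace_smul, Matrix.trace_sub, Matrix.trace_smul, Matrix.trace_one,
      Fintype.card_fin]
    simp only [smul_eq_mul, Nat.cast_ofNat]
    field_simp
    ring
  have hNil_sq : ∀ σ ∈ Γ', Nil σ * Nil σ = 0 := by
    intro σ hσ
    have ht := hcon σ hσ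
    set g : Matrix (Fin 2) (Fin 2) k := (r σ : Matrix (Fin 2) (Fin 2) k) with hg
    set ε : k := g.trace / 2 with hε
    have e1 : ε * ε = 1 := by
      rw [hε]
      field_simp
      linear_combination ht
    have e2 : g.trace = 2 * ε := by rw [hε]; field_simp
    have hn : (g - ε • (1 : Matrix (Fin 2) (Fin 2) k)) * (g - ε • 1) = 0 := by
      rw [Matrix.sub_mul, Matrix.mul_sub, Matrix.mul_sub, mul_self_eq, hdet σ hσ, e2]
      simp only [Matrix.smul_mul, Matrix.mul_smul, Matrix.mul_one, Matrix.one_mul, smul_smul, e1]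
      module
    rw [hNil σ hσ, Matrix.smul_mul, Matrix.mul_smul, hn, smul_zero, smul_zero]
  have hsq_mem : ∀ σ ∈ Γ', σ * σ ∈ Γ' := fun σ hσ => Γ'.mul_mem hσ hσ
  have hrsq : ∀ σ : Γ, (r (σ * σ) : Matrix (Fin 2) (Fin 2) k) = 1 + Nil σ := by
    intro σ
    simp only [Nil]
    abel
  -- pairwise orthogonality
  have horth : ∀ σ ∈ Γ', ∀ τ ∈ Γ', (Nil σ * Nil τ).trace = 0 := by
    intro σ hσ τ hτ
    set s := (Nil σ * Nil τ).trace with hs
    have hu := hsq_mem σ hσ
    have hv := hsq_mem τ hτ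
    have e1 := hcon _ (Γ'.mul_mem hu hv)
    have e2 := hcon _ (Γ'.mul_mem (Γ'.mul_mem hu hu) hv)
    have t1 : (r (σ * σ * (τ * τ)) : Matrix (Fin 2) (Fin 2) k).trace = 2 + s := by
      rw [map_mul, Units.val_mul, hrsq σ, hrsq τ, Matrix.add_mul, Matrix.mul_add, Matrix.mul_add,
        Matrix.one_mul, Matrix.one_mul, Matrix.mul_one, Matrix.trace_add, Matrix.trace_add,
        Matrix.trace_add, hNil_tr σ hσ, hNil_tr τ hτ, Matrix.trace_one, Fintype.card_fin]
      push_cast
      ring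
    have t2 : (r (σ * σ * (σ * σ) * (τ * τ)) : Matrix (Fin 2) (Fin 2) k).trace = 2 + 2 * s := by
      rw [map_mul, map_mul, Units.val_mul, Units.val_mul, hrsq σ, hrsq τ]
      have : (1 + Nil σ) * (1 + Nil σ) = 1 + (2 : k) • Nil σ := by
        rw [Matrix.add_mul, Matrix.mul_add, Matrix.mul_add, hNil_sq σ hσ, two_smul]
        simp only [Matrix.one_mul, Matrix.mul_one]
        abel
      rw [this, Matrix.add_mul, Matrix.mul_add, Matrix.mul_add]
      simp only [Matrix.smul_mul, Matrix.one_mul, Matrix.mul_one, Matrix.trace_add,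
        Matrix.trace_smul, hNil_tr σ hσ, hNil_tr τ hτ, Matrix.trace_one, Fintype.card_fin, ← hs,
        smul_eq_mul]
      push_cast
      ring
    rw [t1] at e1
    rw [t2] at e2
    have e3 : (4 : k) * (s ^ 2 + 2 * s) = 0 := by linear_combination e2
    have e4 : s ^ 2 + 2 * s = 0 := (mul_eq_zero.mp e3).resolve_left h4
    have e5 : (2 : k) * s = 0 := by linear_combination e1 - e4
    exact (mul_eq_zero.mp e5).resolve_left h2
  -- the span of the nilpotent parts
  let Y : Submodule k (Matrix (Fin 2) (Fin 2) k) := Submodule.span k (Nil '' (Γ' : Set Γ))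
  have hYad : Y ≤ ad0 k := by
    rw [Submodule.span_le]
    rintro _ ⟨σ, hσ, rfl⟩
    exact mem_ad0.mpr (hNil_tr σ hσ)
  have hYstab : ∀ γ : Γ, ∀ y ∈ Y, cj (r γ) y ∈ Y := by
    intro γ y hy
    induction hy using Submodule.span_induction with
    | mem y hy =>
      obtain ⟨σ, hσ, rfl⟩ := hy
      apply Submodule.subset_span
      refine ⟨γ * σ * γ⁻¹, Subgroup.Normal.conj_mem inferInstance σ hσ γ, ?_⟩
      simp only [Nil]
      rw [cj_sub, cj_one_mat]
      congr 1
      rw [cj, ← Units.val_mul, ← Units.val_mul, ← map_inv, ← map_mul, ← map_mul]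
      congr 2
      group
    | zero => simp [cj]
    | add a b _ _ ha hb => rw [cj_add]; exact Y.add_mem ha hb
    | smul c a _ ha => rw [cj_smul]; exact Y.smul_mem c ha
  have hYorth : ∀ y ∈ Y, ∀ y' ∈ Y, (y * y').trace = 0 := by
    intro y hy y' hy'
    induction hy using Submodule.span_induction with
    | mem y hy =>
      obtain ⟨σ, hσ, rfl⟩ := hy
      induction hy' using Submodule.span_induction with
      | mem y' hy' =>
        obtain ⟨τ, hτ, rfl⟩ := hy'
        exact horth σ hσ τ hτ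
      | zero => simp
      | add a b _ _ ha hb => rw [Matrix.mul_add, Matrix.trace_add, ha, hb, add_zero]
      | smul c a _ ha => rw [Matrix.mul_smul, Matrix.trace_smul, ha, smul_zero]
    | zero => simp
    | add a b _ _ ha hb => rw [Matrix.add_mul, Matrix.trace_add, ha, hb, add_zero]
    | smul c a _ ha => rw [Matrix.smul_mul, Matrix.trace_smul, ha, smul_zero]
  have hYbot : Y = ⊥ := by
    rcases ad0_irreducible (K := K) h2 r hirr Y hYad hYstab with h | h
    · exact h
    · exfalso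
      have hE : (!![0, 1; 0, 0] : Matrix (Fin 2) (Fin 2) k) ∈ Y := by
        rw [h, mem_ad0, trace_fin_two]; simp
      have hF : (!![0, 0; 1, 0] : Matrix (Fin 2) (Fin 2) k) ∈ Y := by
        rw [h, mem_ad0, trace_fin_two]; simp
      have := hYorth _ hE _ hF
      rw [trace_fin_two] at this
      simp [Matrix.mul_apply, Fin.sum_univ_two] at this
  -- hence every element of `Γ'` is `± 1`
  have hpm : ∀ σ ∈ Γ', (r σ : Matrix (Fin 2) (Fin 2) k) = 1 ∨ (r σ : Matrix (Fin 2) (Fin 2) k) = -1 := by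
    intro σ hσ
    have h0 : Nil σ = 0 := by
      have : Nil σ ∈ Y := Submodule.subset_span ⟨σ, hσ, rfl⟩
      rwa [hYbot, Submodule.mem_bot] at this
    have ht := hcon σ hσ
    rw [hNil σ hσ] at h0
    have ht0 : (r σ : Matrix (Fin 2) (Fin 2) k).trace ≠ 0 := by
      intro h
      rw [h] at ht
      apply h4
      linear_combination -ht
    have h1 := (smul_eq_zero.mp h0).resolve_left ht0
    have h1' := sub_eq_zero.mp h1
    have h5 : ((r σ : Matrix (Fin 2) (Fin 2) k).trace - 2) * ((r σ : Matrix (Fin 2) (Fin 2) k).trace + 2)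
        = 0 := by linear_combination ht
    rcases mul_eq_zero.mp h5 with h | h
    · left
      rw [h1', sub_eq_zero.mp h, div_self h2, one_smul]
    · right
      rw [h1', eq_neg_of_add_eq_zero_left h, neg_div, div_self h2, neg_smul, one_smul]
  -- a non-scalar element
  have hex : ∃ γ₀ : Γ, ∀ c : k, (r γ₀ : Matrix (Fin 2) (Fin 2) k) ≠ c • 1 := by
    by_contra hsc
    push Not at hsc
    refine no_stable_line_base (K := K) h2 r hirr (!![0, 1; 0, 0] : Matrix (Fin 2) (Fin 2) k)
      ?_ (by rw [trace_fin_two]; simp) fun γ => ⟨1, ?_⟩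
    · intro h
      have := congrFun (congrFun h 0) 1
      simp at this
    · obtain ⟨c, hc⟩ := hsc γ
      rw [one_smul, cj_eq_iff, hc]
      simp
  obtain ⟨γ₀, hγ₀⟩ := hex
  set g₀ : Matrix (Fin 2) (Fin 2) k := (r γ₀ : Matrix (Fin 2) (Fin 2) k) with hg₀
  set m : Matrix (Fin 2) (Fin 2) k := g₀ - (g₀.trace / 2) • 1 with hm
  have hm0 : m ≠ 0 := fun h => hγ₀ _ (sub_eq_zero.mp h)
  have hmtr : m.trace = 0 := by
    rw [hm, Matrix.trace_sub, Matrix.trace_smul, Matrix.trace_one, Fintype.card_fin]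
    simp only [smul_eq_mul, Nat.cast_ofNat]
    field_simp
    ring
  refine no_stable_line_base (K := K) h2 r hirr m hm0 hmtr fun γ => ?_
  have hc := hpm _ (hab γ γ₀)
  have hmat : (r (γ * γ₀ * γ⁻¹ * γ₀⁻¹) : Matrix (Fin 2) (Fin 2) k)
      = cj (r γ) g₀ * ((r γ₀)⁻¹ : GL (Fin 2) k) := by
    rw [map_mul, map_mul, map_mul, map_inv, map_inv, Units.val_mul, Units.val_mul, Units.val_mul]
    rfl
  have hinv : (((r γ₀)⁻¹ : GL (Fin 2) k) : Matrix (Fin 2) (Fin 2) k) * g₀ = 1 := by
    rw [hg₀, ← Units.val_mul, inv_mul_cancel, Units.val_one]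
  rcases hc with h | h
  · refine ⟨1, ?_⟩
    have h1 : cj (r γ) g₀ = g₀ := by
      have := congrArg (· * g₀) (hmat.symm.trans h)
      simp only [Matrix.mul_assoc, hinv, Matrix.mul_one, Matrix.one_mul] at this
      exact this
    rw [one_smul, hm, cj_sub, cj_smul, cj_one_mat, h1]
  · refine ⟨-1, ?_⟩
    have h1 : cj (r γ) g₀ = -g₀ := by
      have := congrArg (· * g₀) (hmat.symm.trans h)
      simp only [Matrix.mul_assoc, hinv, Matrix.mul_one, Matrix.neg_mul, Matrix.one_mul] at this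
      exact this
    have htr : g₀.trace = 0 := by
      have := congrArg Matrix.trace h1
      rw [trace_cj, Matrix.trace_neg] at this
      have h3 : (2 : k) * g₀.trace = 0 := by linear_combination this
      exact (mul_eq_zero.mp h3).resolve_left h2
    rw [hm, htr, zero_div, zero_smul, sub_zero, h1, neg_smul, one_smul]

end Descent


/-! ### the twisted adjoint representation and the combined selection statement -/

section Adjoint

variable {k : Type*} [Field k]

/-- conjugation as a linear endomorphism of the traceless matrices. -/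
def cjLin (g : GL (Fin 2) k) : ad0 k →ₗ[k] ad0 k where
  toFun m := ⟨cj g m.1, mem_ad0.mpr (by rw [trace_cj]; exact mem_ad0.mp m.2)⟩
  map_add' a b := Subtype.ext (cj_add g a.1 b.1)
  map_smul' c a := Subtype.ext (cj_smul g c a.1)

@[simp] theorem coe_cjLin (g : GL (Fin 2) k) (m : ad0 k) :
    ((cjLin g m : ad0 k) : Matrix (Fin 2) (Fin 2) k) = cj g m.1 := rfl

/-- the adjoint representation on `ad⁰` twisted by a character. -/
def adRep (r : Γ →* GL (Fin 2) k) (ω : Γ →* kˣ) : Γ →* (ad0 k →ₗ[k] ad0 k) where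
  toFun γ := ((ω γ : kˣ) : k) • cjLin (r γ)
  map_one' := by
    ext m : 2
    simp [cj_one]
  map_mul' a b := by
    ext m : 2
    simp only [map_mul, Units.val_mul, LinearMap.smul_apply, Module.End.mul_apply,
      Submodule.coe_smul, coe_cjLin, cj_mul, cj_smul, smul_smul]

theorem coe_adRep (r : Γ →* GL (Fin 2) k) (ω : Γ →* kˣ) (γ : Γ) (m : ad0 k) :
    ((adRep r ω γ m : ad0 k) : Matrix (Fin 2) (Fin 2) k) = ((ω γ : kˣ) : k) • cj (r γ) m.1 := rfl

variable {K : Type*} [Field K] [Algebra k K]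

/-- `ad⁰` with the twisted adjoint action is an irreducible `k[Γ]`-module. -/
theorem adRep_irreducible [IsAlgClosed K] (h2 : (2 : k) ≠ 0) (r : Γ →* GL (Fin 2) k) (ω : Γ →* kˣ)
    (hirr : Irr2 (bc K r)) (U : Submodule k (ad0 k))
    (hU : ∀ γ : Γ, ∀ u ∈ U, adRep r ω γ u ∈ U) : U = ⊥ ∨ U = ⊤ := by
  have hstab : ∀ γ : Γ, ∀ u ∈ U.map (ad0 k).subtype, cj (r γ) u ∈ U.map (ad0 k).subtype := by
    rintro γ _ ⟨u, hu, rfl⟩
    refine ⟨(((ω γ)⁻¹ : kˣ) : k) • adRep r ω γ u, U.smul_mem _ (hU γ u hu), ?_⟩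
    simp only [Submodule.subtype_apply, Submodule.coe_smul, coe_adRep, smul_smul]
    rw [← Units.val_mul, inv_mul_cancel, Units.val_one, one_smul]
  have hle : U.map (ad0 k).subtype ≤ ad0 k := by
    rintro _ ⟨u, -, rfl⟩
    exact u.2
  rcases ad0_irreducible (K := K) h2 r hirr _ hle hstab with h | h
  · left
    rw [Submodule.eq_bot_iff]
    intro u hu
    have : (u : Matrix (Fin 2) (Fin 2) k) ∈ U.map (ad0 k).subtype := ⟨u, hu, rfl⟩
    rw [h, Submodule.mem_bot] at this
    exact Subtype.ext this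
  · right
    rw [eq_top_iff]
    intro u _
    have : (u : Matrix (Fin 2) (Fin 2) k) ∈ U.map (ad0 k).subtype := by rw [h]; exact u.2
    obtain ⟨u', hu', he⟩ := this
    have : u' = u := Subtype.ext he
    rwa [← this]

/-- **The group-theoretic content of (KILL).**  `Γ' ⊴ Γ` with abelian quotient (the kernel of the
cyclotomic character mod `p ^ (n + 1)`), `det r = 1` and `ω = 1` on `Γ'`; `N ⊴ Γ`, `N ≤ Γ'`,
`r = 1` on `N`; `x` a 1-cocycle with values in the twisted adjoint module, not vanishing on `N`.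
Then some `σ ∈ Γ'` has distinct eigenvalues and `x σ ∉ (σ - 1) ad⁰`. -/
theorem exists_good_sigma [IsAlgClosed K] (h2 : (2 : k) ≠ 0) (r : Γ →* GL (Fin 2) k) (ω : Γ →* kˣ)
    (hirr : Irr2 (bc K r)) (Γ' N : Subgroup Γ) [Γ'.Normal] [N.Normal]
    (hab : ∀ a b : Γ, a * b * a⁻¹ * b⁻¹ ∈ Γ')
    (hdet : ∀ σ ∈ Γ', (r σ : Matrix (Fin 2) (Fin 2) k).det = 1) (hω : ∀ σ ∈ Γ', ω σ = 1)
    (hNΓ' : N ≤ Γ') (hNr : ∀ ν ∈ N, r ν = 1)
    (x : Γ → ad0 k) (hx : ∀ g h, x (g * h) = x g + adRep r ω g (x h))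
    (hxN : ∃ ν ∈ N, x ν ≠ 0) :
    ∃ σ ∈ Γ', (r σ : Matrix (Fin 2) (Fin 2) k).trace ^ 2 ≠ 4 ∧
      x σ ∉ LinearMap.range (adRep r ω σ - 1) := by
  obtain ⟨σ₀, hσ₀, htr⟩ := exists_trace_sq_ne_four (K := K) h2 r hirr Γ' hab hdet
  have hN1 : ∀ ν ∈ N, adRep r ω ν = 1 := by
    intro ν hν
    ext m : 2
    rw [coe_adRep, hNr ν hν, hω ν (hNΓ' hν), Units.val_one, one_smul, cj_one]
    rfl
  -- `σ₀ - 1` is not surjective on `ad⁰`: it kills the traceless part of `r σ₀`
  have hrange : LinearMap.range (adRep r ω σ₀ - 1) ≠ ⊤ := by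
    intro htop
    set T : ad0 k →ₗ[k] ad0 k := adRep r ω σ₀ - 1 with hT
    have hsurj : Function.Surjective T := LinearMap.range_eq_top.mp htop
    have hinj : Function.Injective T := LinearMap.injective_iff_surjective.mpr hsurj
    set g₀ : Matrix (Fin 2) (Fin 2) k := (r σ₀ : Matrix (Fin 2) (Fin 2) k) with hg₀
    have hmtr : (g₀ - (g₀.trace / 2) • (1 : Matrix (Fin 2) (Fin 2) k)).trace = 0 := by
      rw [Matrix.trace_sub, Matrix.trace_smul, Matrix.trace_one, Fintype.card_fin]
      simp only [smul_eq_mul, Nat.cast_ofNat]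
      field_simp
      ring
    let m : ad0 k := ⟨g₀ - (g₀.trace / 2) • 1, mem_ad0.mpr hmtr⟩
    have hfix : T m = 0 := by
      apply Subtype.ext
      rw [hT, LinearMap.sub_apply, Module.End.one_apply, Submodule.coe_sub, coe_adRep, hω σ₀ hσ₀,
        Units.val_one, one_smul, Submodule.coe_zero, sub_eq_zero]
      show cj (r σ₀) (g₀ - (g₀.trace / 2) • 1) = g₀ - (g₀.trace / 2) • 1
      rw [cj_sub, cj_smul, cj_one_mat]
      congr 1
      rw [cj_eq_iff]
    have hm0 : m = 0 := hinj (by rw [hfix, map_zero])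
    have hsc : g₀ = (g₀.trace / 2) • 1 := sub_eq_zero.mp (congrArg Subtype.val hm0)
    apply htr
    have hd := hdet σ₀ hσ₀
    rw [← hg₀, hsc, Matrix.det_smul, Matrix.det_one, Fintype.card_fin, mul_one] at hd
    have h2' : (2 : k) ≠ 0 := h2
    have h4 : g₀.trace ^ 2 = 4 * (g₀.trace / 2) ^ 2 := by
      field_simp
      ring
    rw [h4, hd]
    ring
  obtain ⟨ν, hν, hnot⟩ := exists_mul_not_mem_range (adRep r ω)
    (adRep_irreducible (K := K) h2 r ω hirr) N hN1 x hx hxN σ₀ hrange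
  refine ⟨ν * σ₀, Γ'.mul_mem (hNΓ' hν) hσ₀, ?_, ?_⟩
  · rwa [map_mul, hNr ν hν, one_mul]
  · rwa [map_mul, hN1 ν hν, one_mul]

end Adjoint

end Mat

end Fermat.Agent.S56x.Kill
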