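import Mathlib
import Fermat.Agent.S56x.Dict.DualAdInst
import Fermat.Agent.S56x.Group.EndKill
import Fermat.Agent.S56x.Cheb.Kill
import Fermat.Agent.S56x.Cheb.TWFamily

/-!
# P-S56: the final (KILL) statement in the formalism of block (B)

For `M := ad0Rep p rbar` (`rbar` the matrix form of `ρbar` in a basis `b`) and a nonzero class
`x ∈ continuousH1S S (tateDual p M)` there is, for every `n` and every finite set `T` of primes, a
Taylor–Wiles prime `q ∉ T`, `q ≡ 1 mod p^(n+1)` (every Frobenius at every place over `q` has two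
distinct eigenvalues in `k` under `ρbar`) such that the restriction of `x` to the local Galois
group at `q` is nonzero.

Glue of
* `Dict/DualAdInst` (the Tate dual of `ad⁰ ρbar` in matrix form),
* `Group/EndKill.exists_good_sigma_of_not_coboundary` (choice of `σ`; hypothesis `GTStatement`),
* `Cheb/Kill.exists_prime_kill` (Chebotarev).
-/

set_option autoImplicit false
set_option linter.unusedSectionVars false
set_option linter.style.haveILetI false

open Polynomial Matrix groupCohomology ExtCitation CategoryTheory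

noncomputable section

namespace Fermat.Agent.S56x.Kill.Main

open Fermat.Agent.S56x.Group Fermat.Agent.S56x.Group.EndAdapter Fermat.Agent.S56x.Group.EndKill
  Fermat.Agent.S56x.Group.EndGoodSigma Fermat.Agent.S56x.Dict Fermat.Agent.S56x.Dict.DualAd
  Fermat.Agent.S56x.Cheb Fermat.Agent.S53

local notation "Qb" => AlgebraicClosure ℚ
local notation "Γℚ" => (AlgebraicClosure ℚ ≃ₐ[ℚ] AlgebraicClosure ℚ)
local notation "M₂" => Matrix (Fin 2) (Fin 2)

variable {k : Type} [Field k] (p : ℕ) [hp : Fact p.Prime]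

/-- Galois action on a `p`-th root of unity through the cyclotomic character of the Prelude. -/
theorem apply_eq_pow_cycloExp_qbar (σ : Γℚ) {μ : Qb} (hμ : μ ^ p = 1) :
    σ μ = μ ^ cycloExp p σ := by
  have : NeZero p := ⟨hp.out.ne_zero⟩
  have hμ0 : μ ≠ 0 := by
    rintro rfl
    rw [zero_pow hp.out.ne_zero] at hμ
    exact zero_ne_one hμ
  have hmem : Units.mk0 μ hμ0 ∈ rootsOfUnity p Qb := by
    rw [mem_rootsOfUnity]
    exact Units.ext (by simpa using hμ)
  have := modularCyclotomicCharacter.spec Qb (card_rootsOfUnity_eq_self p)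
    (σ : Qb ≃+* Qb) hmem
  simpa [cycloExp] using this

/-- `hdet` ⟹ `det ρbar = cycloChar p` (as elements of `k`). -/
theorem det_eq_cycloChar [Algebra (ZMod p) k] (ρbar : ResidualGaloisRep k)
    (hdet : (GaloisRepAdic.ofResidualGaloisRep ρbar).DetIsCyclotomic p) (g : Γℚ) :
    algebraMap (ZMod p) k ((cycloChar p g : (ZMod p)ˣ) : ZMod p) = LinearMap.det (ρbar.ρ g) := by
  have hp0 := cast_prime_eq_zero_of_detIsCyclotomic p ρbar hdet
  have h := hdet.2 1 g (cycloExp p g) fun μ hμ => by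
    rw [pow_one] at hμ
    exact apply_eq_pow_cycloExp_qbar p g hμ
  have h0 : ((p ^ 1 : ℕ) : k) = 0 := by rw [pow_one]; exact hp0
  rw [h0, Ideal.span_singleton_eq_bot.mpr rfl, Ideal.mem_bot, sub_eq_zero] at h
  rw [coe_cycloChar, map_natCast]
  exact h.symm

variable {p}

/-- The matrix form of `ρbar` in the basis `b` as a `GL₂`-valued homomorphism is `matRep`. -/
theorem toHomUnits_toMatResOfBasis (ρbar : ResidualGaloisRep k)
    (b : Module.Basis (Fin 2) k ρbar.V) :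
    (toMatResOfBasis ρbar b).toHomUnits = matRep b ρbar.ρ := by
  ext1 g
  apply Units.ext
  rw [MonoidHom.coe_toHomUnits, matRep_val, toMatResOfBasis_apply]

variable (p)

/-- **(KILL), final form.**  Under the frozen hypotheses of S56 on `ρbar` and the group theoretic
statement (GT), a nonzero class `x ∈ continuousH1S S (tateDual p (ad0Rep p rbar))` has nonzero
restriction at some Taylor–Wiles prime `q ∉ T` of level `n`. -/
theorem exists_prime_kill_ad0 [Finite k] [Algebra (ZMod p) k] (hp2 : p ≠ 2)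
    (ρbar : ResidualGaloisRep k) (habs : ρbar.IsAbsolutelyIrreducible)
    (hdet : (GaloisRepAdic.ofResidualGaloisRep ρbar).DetIsCyclotomic p)
    (hsplit : ∀ σ : Γℚ, ∃ α β : k, LinearMap.charpoly (ρbar.ρ σ) = (X - C α) * (X - C β))
    (hTW : ∀ (K : Type) [Field K] [Algebra k K] (G : Subgroup Γℚ), G.index = 2 →
      ∀ V : Submodule K (ρbar.baseChange K).V,
        (∀ σ ∈ G, ∀ x ∈ V, (ρbar.baseChange K).ρ σ x ∈ V) → V = ⊥ ∨ V = ⊤)
    (hGT : GTStatement (matRep (resBasis ρbar) ρbar.ρ))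
    (b : Module.Basis (Fin 2) k ρbar.V) (S : Finset Nat.Primes) (n : ℕ) (T : Finset ℕ)
    {x : H1 (Fermat.Agent.S56x.GW.tateDual p (ad0Rep p (toMatResOfBasis ρbar b)))}
    (hx : x ∈ continuousH1S S
      (Fermat.Agent.S56x.GW.tateDual p (ad0Rep p (toMatResOfBasis ρbar b))))
    (hx0 : x ≠ 0) :
    ∃ q : Nat.Primes, (q : ℕ) ∉ T ∧ (q : ℕ) ≠ p ∧ p ^ (n + 1) ∣ (q : ℕ) - 1 ∧
      (∀ P : ValuationSubring Qb, P.LiesOverPrime (q : ℕ) →
        ∀ φ : Γℚ, P.IsFrobeniusAt φ (q : ℕ) →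
          ∃ α β : k, α ≠ β ∧ LinearMap.charpoly (ρbar.ρ φ) = (X - C α) * (X - C β)) ∧
      (locRes (fun q : Nat.Primes => primeLocalToGlobal q)
        (Fermat.Agent.S56x.GW.tateDual p (ad0Rep p (toMatResOfBasis ρbar b))) q).hom x ≠ 0 := by
  have hpp : p.Prime := Fact.out
  set rbar := toMatResOfBasis ρbar b with hrbar
  have h2 : (2 : k) ≠ 0 := two_ne_zero_of_detIsCyclotomic p hp2 ρbar hdet
  have hdet' : ∀ g, algebraMap (ZMod p) k ((cycloChar p g : (ZMod p)ˣ) : ZMod p) =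
      (rbar g).det := fun g => by
    rw [det_eq_cycloChar p ρbar hdet g, hrbar, toMatResOfBasis_apply, LinearMap.det_toMatrix]
  -- the matrix cocycle
  obtain ⟨c, ψ, hcS, hcx, hψ, hψtr, hψcob, -, hkill⟩ :=
    exists_matrix_cocycle_of_ne_zero h2 rbar hdet' hx hx0
  have hr : rbar.toHomUnits = matRep b ρbar.ρ := toHomUnits_toMatResOfBasis ρbar b
  rw [hr] at hψ hψcob hkill
  -- the `End`-valued cocycle
  set Ψ : Γℚ → Module.End k ρbar.V := fun g => (LinearMap.toMatrix b b).symm (ψ g) with hΨdef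
  have hΨψ : (fun g => LinearMap.toMatrix b b (Ψ g)) = ψ := by
    funext g
    simp [hΨdef]
  have hΨ : IsEndCocycle ρbar.ρ Ψ := by
    rw [isEndCocycle_iff b, hΨψ]
    exact hψ
  have hΨtr : ∀ g, LinearMap.trace k ρbar.V (Ψ g) = 0 := fun g => by
    rw [← trace_toMatrix_eq b, congrFun hΨψ g]
    exact hψtr g
  have hΨcob : ¬ IsEndCoboundary ρbar.ρ Ψ := by
    rw [isEndCoboundary_iff b, hΨψ]
    exact hψcob
  -- the root of unity and the choice of `σ`
  haveI : NeZero (p ^ (n + 1)) := ⟨(pow_pos hpp.pos (n + 1)).ne'⟩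
  obtain ⟨ζ, hζ⟩ := exists_primitiveRoot_qbar (p ^ (n + 1))
  obtain ⟨σ, hσζ, -, ⟨α, β, hαβ, hσcp⟩, hσΨ⟩ :=
    exists_good_sigma_of_not_coboundary p hp2 ρbar habs hdet hsplit hTW hGT n hζ Ψ hΨ hΨtr hΨcob
  have hσc : c σ ∉ LinearMap.range
      ((Fermat.Agent.S56x.GW.tateDual p (ad0Rep p rbar)).ρ σ - 1) := by
    apply hkill σ
    intro B hB
    apply hσΨ ((LinearMap.toMatrix b b).symm B)
    apply (LinearMap.toMatrix b b).injective
    rw [map_sub, toMatrix_endTw, LinearEquiv.apply_symm_apply, hB]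
    exact (congrFun hΨψ σ).symm
  -- the level field
  obtain ⟨F, hF, hcF⟩ := hcS
  haveI := hF.1
  obtain ⟨L, hLfd, hL⟩ := ρbar.factorsThroughFiniteLevel
  haveI := hLfd
  haveI : FiniteDimensional ℚ (L ⊔ F : IntermediateField ℚ Qb) :=
    IntermediateField.finiteDimensional_sup _ _
  obtain ⟨E, hEfd, hEgal, hLFE, hζE⟩ := exists_finite_galois_ge (L ⊔ F) {ζ}
  haveI := hEfd
  haveI := hEgal
  have hE : ∀ g : Γℚ, (∀ x ∈ E, g x = x) → ρbar.ρ g = 1 := fun g hg =>
    hL g fun x hx => hg x (hLFE (le_sup_left (a := L) hx))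
  have hME : ∀ s ∈ E.fixingSubgroup,
      (Fermat.Agent.S56x.GW.tateDual p (ad0Rep p rbar)).ρ s = 1 := by
    intro s hs
    have hs1 : ρbar.ρ s = 1 :=
      hE s fun x hx => (IntermediateField.mem_fixingSubgroup_iff E s).1 hs x hx
    have hrs : rbar.toHomUnits s = 1 := by
      apply Units.ext
      rw [MonoidHom.coe_toHomUnits, hrbar, toMatResOfBasis_apply, hs1, Units.val_one]
      exact LinearMap.toMatrix_one b
    ext f : 1
    apply (ad0RepDualModel h2 rbar hdet').inj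
    rw [(ad0RepDualModel h2 rbar hdet').equivariant, hrs, adTwMat_one]
    rfl
  have hcE : ∀ g s : Γℚ, s ∈ E.fixingSubgroup → c (g * s) = c g := fun g s hs =>
    hcF g s (IntermediateField.fixingSubgroup_antitone
      (le_trans (le_sup_right (a := L)) hLFE) hs)
  -- Chebotarev
  obtain ⟨q, hqS, hqdvd, hqfrob, hqres⟩ :=
    exists_prime_kill (Fermat.Agent.S56x.GW.tateDual p (ad0Rep p rbar)) c E hME hcE
      (pow_pos hpp.pos (n + 1)) hζ (hζE ζ (Finset.mem_singleton_self ζ)) σ hσζ hσc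
      (insert p T) (fun q hq hd => by
        rw [(Nat.prime_dvd_prime_iff_eq hq hpp).mp (hq.dvd_of_dvd_pow hd)]
        exact Finset.mem_insert_self _ _)
  refine ⟨q, fun hm => hqS (Finset.mem_insert_of_mem hm),
    fun hm => hqS (hm ▸ Finset.mem_insert_self _ _), hqdvd, fun P hP φ hφ => ?_, ?_⟩
  · obtain ⟨τ, hτ⟩ := hqfrob P hP φ hφ
    exact ⟨α, β, hαβ, (charpoly_eq_of_conj ρbar E hE hτ).trans hσcp⟩
  · rw [← hcx]
    exact hqres

/-- **Existence of a regular `σ`** fixing the `p^(n+1)`-th roots of unity: under the frozen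
hypotheses of S56 some `σ` with `σ ζ = ζ` has two distinct eigenvalues in `k` under `ρbar`. -/
theorem exists_sigma_regular (hp2 : p ≠ 2)
    (ρbar : ResidualGaloisRep k) (habs : ρbar.IsAbsolutelyIrreducible)
    (hdet : (GaloisRepAdic.ofResidualGaloisRep ρbar).DetIsCyclotomic p)
    (hsplit : ∀ σ : Γℚ, ∃ α β : k, LinearMap.charpoly (ρbar.ρ σ) = (X - C α) * (X - C β))
    (hTW : ∀ (K : Type) [Field K] [Algebra k K] (G : Subgroup Γℚ), G.index = 2 →
      ∀ V : Submodule K (ρbar.baseChange K).V,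
        (∀ σ ∈ G, ∀ x ∈ V, (ρbar.baseChange K).ρ σ x ∈ V) → V = ⊥ ∨ V = ⊤)
    (n : ℕ) {ζ : Qb} (hζ : IsPrimitiveRoot ζ (p ^ (n + 1))) :
    ∃ σ : Γℚ, σ ζ = ζ ∧
      ∃ α β : k, α ≠ β ∧ LinearMap.charpoly (ρbar.ρ σ) = (X - C α) * (X - C β) := by
  have hpp : p.Prime := Fact.out
  have hN : 1 < p ^ (n + 1) := Nat.one_lt_pow (Nat.succ_ne_zero n) hpp.one_lt
  haveI : NeZero (p ^ (n + 1)) := ⟨(Nat.zero_lt_of_lt hN).ne'⟩
  haveI : IsCyclic (ZMod (p ^ (n + 1)))ˣ := ZMod.isCyclic_units_of_prime_pow p hpp hp2 (n + 1)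
  set b := resBasis ρbar with hb
  set χ := hζ.autToPow ℚ with hχ
  have h2 := two_ne_zero_of_detIsCyclotomic p hp2 ρbar hdet
  have hirr := not_stableLineOver_ker ρbar habs hTW b χ
  have hw0 : (!![0, 1; 0, 0] : M₂ k) ≠ 0 := by
    intro h
    have := congrFun (congrFun h 0) 1
    simp at this
  have hw : (!![0, 1; 0, 0] : M₂ k).trace = 0 := by simp [Matrix.trace_fin_two]
  obtain ⟨σ, hσN, hdisc, -⟩ :=
    Fermat.Agent.S56x.Group.SigmaChoice.exists_mem_regular_trace_ne_zero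
      (K := AlgebraicClosure k) h2 (matRep b ρbar.ρ) χ.ker hirr hw0 hw
  obtain ⟨α, β, hc⟩ := hsplit σ
  refine ⟨σ, (mem_ker_autToPow_iff hN hζ σ).mp hσN, α, β, ?_, hc⟩
  exact Fermat.Agent.S56x.Group.SigmaChoice.ne_of_charpoly_eq hdisc
    (by rw [← charpoly_eq b ρbar.ρ σ]; exact hc)

/-- **(EXIST), family form**: Taylor–Wiles families of any size `r` and level `n`, avoiding any
finite set `T₀`, exist under the frozen hypotheses of S56. -/
theorem exists_isTWFamily_of_hyp (hp2 : p ≠ 2)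
    (ρbar : ResidualGaloisRep k) (habs : ρbar.IsAbsolutelyIrreducible)
    (hdet : (GaloisRepAdic.ofResidualGaloisRep ρbar).DetIsCyclotomic p)
    (hsplit : ∀ σ : Γℚ, ∃ α β : k, LinearMap.charpoly (ρbar.ρ σ) = (X - C α) * (X - C β))
    (hTW : ∀ (K : Type) [Field K] [Algebra k K] (G : Subgroup Γℚ), G.index = 2 →
      ∀ V : Submodule K (ρbar.baseChange K).V,
        (∀ σ ∈ G, ∀ x ∈ V, (ρbar.baseChange K).ρ σ x ∈ V) → V = ⊥ ∨ V = ⊤)
    (S : Finset ℕ) (n r : ℕ) (T₀ : Finset ℕ) :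
    ∃ qv : Fin r → ℕ, IsTWFamily ρbar p S n r qv ∧ ∀ i, qv i ∉ T₀ := by
  have hpp : p.Prime := Fact.out
  haveI : NeZero (p ^ (n + 1)) := ⟨(pow_pos hpp.pos (n + 1)).ne'⟩
  obtain ⟨ζ, hζ⟩ := exists_primitiveRoot_qbar (p ^ (n + 1))
  obtain ⟨σ, hσζ, hσ⟩ := exists_sigma_regular p hp2 ρbar habs hdet hsplit hTW n hζ
  obtain ⟨E, -, -, -, -, qv, h1, h2, -⟩ :=
    exists_isTWFamily ρbar hpp S n r (⊥ : IntermediateField ℚ Qb) (fun _ => σ)
      (fun _ μ hμ => by
        obtain ⟨i, -, rfl⟩ := hζ.eq_pow_of_pow_eq_one hμ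
        rw [map_pow, hσζ])
      (fun _ => hσ) T₀
  exact ⟨qv, h1, h2⟩

/-- **(EXIST), single prime form.** -/
theorem exists_prime_tw (hp2 : p ≠ 2)
    (ρbar : ResidualGaloisRep k) (habs : ρbar.IsAbsolutelyIrreducible)
    (hdet : (GaloisRepAdic.ofResidualGaloisRep ρbar).DetIsCyclotomic p)
    (hsplit : ∀ σ : Γℚ, ∃ α β : k, LinearMap.charpoly (ρbar.ρ σ) = (X - C α) * (X - C β))
    (hTW : ∀ (K : Type) [Field K] [Algebra k K] (G : Subgroup Γℚ), G.index = 2 →
      ∀ V : Submodule K (ρbar.baseChange K).V,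
        (∀ σ ∈ G, ∀ x ∈ V, (ρbar.baseChange K).ρ σ x ∈ V) → V = ⊥ ∨ V = ⊤)
    (n : ℕ) (T : Finset ℕ) :
    ∃ q : Nat.Primes, (q : ℕ) ∉ T ∧ (q : ℕ) ≠ p ∧ p ^ (n + 1) ∣ (q : ℕ) - 1 ∧
      (∀ P : ValuationSubring Qb, P.LiesOverPrime (q : ℕ) →
        ∀ φ : Γℚ, P.IsFrobeniusAt φ (q : ℕ) →
          ∃ α β : k, α ≠ β ∧ LinearMap.charpoly (ρbar.ρ φ) = (X - C α) * (X - C β)) := by
  obtain ⟨qv, ⟨-, h1, h2⟩, h3⟩ :=
    exists_isTWFamily_of_hyp p hp2 ρbar habs hdet hsplit hTW {p} n 1 T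
  refine ⟨⟨qv 0, (h1 0).1⟩, h3 0, fun h => (h1 0).2.1 ?_, (h1 0).2.2, h2 0⟩
  rw [Finset.mem_singleton]
  exact h

end Fermat.Agent.S56x.Kill.Main
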