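import Mathlib
import Fermat.Agent.S56x.Kill.Main
import Fermat.Agent.S56x.Assembly.Basics

/-!
# P-S56: a Taylor–Wiles family killing `H¹(G_{S₀}, ad⁰ρbar(1))`

From the final (KILL) and (EXIST) statements of `Kill/Main.lean`: with
`r := finrank (continuousH1S S₀ (tateDual p M))`, `M := ad0Rep p rbar`, for every level `n` there is
a Taylor–Wiles family `qv : Fin r → ℕ` of level `n` (avoiding any finite set `T₀`) such that a class
`x ∈ continuousH1S S₀ (tateDual p M)` which is locally trivial at all `qv i` is zero.  This is the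
hypothesis `hkill` of `Assembly/DualVanish.sel_dual_eq_bot`; `r` does not depend on `n`.

Kill one class per prime, pad with arbitrary Taylor–Wiles primes.
-/

set_option autoImplicit false
set_option linter.unusedSectionVars false
set_option linter.style.haveILetI false

open Polynomial Matrix groupCohomology ExtCitation CategoryTheory Module

noncomputable section

namespace Fermat.Agent.S56x.Kill.Family

open Fermat.Agent.S56x.Group.EndAdapter Fermat.Agent.S56x.Group.EndKill
  Fermat.Agent.S56x.Dict Fermat.Agent.S56x.Basics Fermat.Agent.S53 Fermat.Agent.S56x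

local notation "Qb" => AlgebraicClosure ℚ
local notation "Γℚ" => (AlgebraicClosure ℚ ≃ₐ[ℚ] AlgebraicClosure ℚ)

/-- **Kill and pad** (abstract form).  `V` a finite dimensional subspace, `Z q` a family of
subspaces (kernels of the tests), `good` a property of the indices.  If every nonzero `x ∈ V` is
detected by a good index outside any finite set and good indices exist outside any finite set, then
there is a set `Q` of exactly `finrank V` good indices with `V ∩ ⋂_{q ∈ Q} Z q = 0`. -/
theorem exists_finset_killing {F H ι : Type*} [Field F] [AddCommGroup H] [Module F H]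
    [DecidableEq ι] (V : Submodule F H) [FiniteDimensional F V] (Z : ι → Submodule F H)
    (good : ι → Prop)
    (hkill : ∀ (T : Finset ι) (x : H), x ∈ V → x ≠ 0 → ∃ q, q ∉ T ∧ good q ∧ x ∉ Z q)
    (hexist : ∀ T : Finset ι, ∃ q, q ∉ T ∧ good q) :
    ∃ Q : Finset ι, Q.card = finrank F V ∧ (∀ q ∈ Q, good q) ∧
      ∀ x ∈ V, (∀ q ∈ Q, x ∈ Z q) → x = 0 := by
  have key : ∀ j : ℕ, j ≤ finrank F V → ∃ Q : Finset ι, Q.card = j ∧ (∀ q ∈ Q, good q) ∧
      finrank F ↥(V ⊓ ⨅ q ∈ Q, Z q) + j ≤ finrank F V := by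
    intro j
    induction j with
    | zero =>
      intro _
      refine ⟨∅, rfl, fun q hq => absurd hq (Finset.notMem_empty q), ?_⟩
      rw [add_zero]
      exact Submodule.finrank_mono inf_le_left
    | succ j ih =>
      intro hj
      obtain ⟨Q, hcard, hgood, hfr⟩ := ih (Nat.le_of_succ_le hj)
      set K : Submodule F H := V ⊓ ⨅ q ∈ Q, Z q with hK
      haveI : FiniteDimensional F ↥K := Submodule.finiteDimensional_of_le inf_le_left
      have hins : ∀ q, V ⊓ ⨅ q' ∈ insert q Q, Z q' = K ⊓ Z q := by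
        intro q
        rw [Finset.iInf_insert, hK, inf_assoc, inf_comm (Z q)]
      by_cases hbot : K = ⊥
      · obtain ⟨q, hqQ, hq⟩ := hexist Q
        refine ⟨insert q Q, ?_, ?_, ?_⟩
        · rw [Finset.card_insert_of_notMem hqQ, hcard]
        · intro q' hq'
          rcases Finset.mem_insert.1 hq' with rfl | h
          · exact hq
          · exact hgood q' h
        · rw [hins, hbot, bot_inf_eq, finrank_bot, zero_add]
          exact hj
      · obtain ⟨x, hxK, hx0⟩ := Submodule.exists_mem_ne_zero_of_ne_bot hbot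
        obtain ⟨q, hqQ, hq, hxq⟩ := hkill Q x (Submodule.mem_inf.1 hxK).1 hx0
        refine ⟨insert q Q, ?_, ?_, ?_⟩
        · rw [Finset.card_insert_of_notMem hqQ, hcard]
        · intro q' hq'
          rcases Finset.mem_insert.1 hq' with rfl | h
          · exact hq
          · exact hgood q' h
        · rw [hins]
          have hlt : K ⊓ Z q < K := by
            refine lt_of_le_of_ne inf_le_left fun h => hxq ?_
            have : x ∈ K ⊓ Z q := by rw [h]; exact hxK
            exact (Submodule.mem_inf.1 this).2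
          have := Submodule.finrank_lt_finrank_of_lt hlt
          omega
  obtain ⟨Q, hcard, hgood, hfr⟩ := key (finrank F V) le_rfl
  refine ⟨Q, hcard, hgood, fun x hxV hx => ?_⟩
  have h0 : finrank F ↥(V ⊓ ⨅ q ∈ Q, Z q) = 0 := by omega
  haveI : FiniteDimensional F ↥(V ⊓ ⨅ q ∈ Q, Z q) :=
    Submodule.finiteDimensional_of_le inf_le_left
  have hb : V ⊓ ⨅ q ∈ Q, Z q = ⊥ := Submodule.finrank_eq_zero.1 h0
  have hx' : x ∈ V ⊓ ⨅ q ∈ Q, Z q := by
    refine Submodule.mem_inf.2 ⟨hxV, ?_⟩
    simp only [Submodule.mem_iInf]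
    exact hx
  rw [hb] at hx'
  exact (Submodule.mem_bot F).1 hx'

variable {k : Type} [Field k] (p : ℕ) [hp : Fact p.Prime]

/-- **A killing Taylor–Wiles family.**  Under the frozen hypotheses of S56 and (GT): with
`N := tateDual p (ad0Rep p rbar)` and `r := finrank (continuousH1S S₀ N)` (finite dimensional by
`GWPackage.finite_H1S`), for every level `n` and finite sets `S`, `T₀` there is a Taylor–Wiles family
`qv : Fin r → ℕ` of level `n` avoiding `S` and `T₀` such that every class of `continuousH1S S₀ N`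
which is locally trivial at all the primes `qv i` vanishes. -/
theorem exists_killing_family [Finite k] [Algebra (ZMod p) k] (hp2 : p ≠ 2)
    (ρbar : ResidualGaloisRep k) (habs : ρbar.IsAbsolutelyIrreducible)
    (hdet : (GaloisRepAdic.ofResidualGaloisRep ρbar).DetIsCyclotomic p)
    (hsplit : ∀ σ : Γℚ, ∃ α β : k, LinearMap.charpoly (ρbar.ρ σ) = (X - C α) * (X - C β))
    (hTW : ∀ (K : Type) [Field K] [Algebra k K] (G : Subgroup Γℚ), G.index = 2 →
      ∀ V : Submodule K (ρbar.baseChange K).V,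
        (∀ σ ∈ G, ∀ x ∈ V, (ρbar.baseChange K).ρ σ x ∈ V) → V = ⊥ ∨ V = ⊤)
    (hGT : GTStatement (matRep (resBasis ρbar) ρbar.ρ))
    (b : Module.Basis (Fin 2) k ρbar.V) (S₀ : Finset Nat.Primes)
    (hfin : Module.Finite (ZMod p) (continuousH1S S₀
      (Fermat.Agent.S56x.GW.tateDual p (ad0Rep p (toMatResOfBasis ρbar b)))))
    (S T₀ : Finset ℕ) (n : ℕ) :
    ∃ qv : Fin (finrank (ZMod p) (continuousH1S S₀
        (Fermat.Agent.S56x.GW.tateDual p (ad0Rep p (toMatResOfBasis ρbar b))))) → ℕ,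
      IsTWFamily ρbar p S n _ qv ∧ (∀ i, qv i ∉ T₀) ∧ (∀ i, qv i ≠ p) ∧
      ∀ x ∈ continuousH1S S₀
          (Fermat.Agent.S56x.GW.tateDual p (ad0Rep p (toMatResOfBasis ρbar b))),
        (∀ q ∈ toPrimes (Finset.univ.image qv),
          (locRes (fun q : Nat.Primes => primeLocalToGlobal q)
            (Fermat.Agent.S56x.GW.tateDual p (ad0Rep p (toMatResOfBasis ρbar b))) q).hom x = 0) →
        x = 0 := by
  classical
  set N := Fermat.Agent.S56x.GW.tateDual p (ad0Rep p (toMatResOfBasis ρbar b)) with hN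
  haveI := hfin
  let good : Nat.Primes → Prop := fun q =>
    (q : ℕ) ∉ S ∧ (q : ℕ) ∉ T₀ ∧ (q : ℕ) ≠ p ∧ p ^ (n + 1) ∣ (q : ℕ) - 1 ∧
      ∀ P : ValuationSubring Qb, P.LiesOverPrime (q : ℕ) →
        ∀ φ : Γℚ, P.IsFrobeniusAt φ (q : ℕ) →
          ∃ α β : k, α ≠ β ∧ LinearMap.charpoly (ρbar.ρ φ) = (X - C α) * (X - C β)
  let Z : Nat.Primes → Submodule (ZMod p) (H1 N) := fun q =>
    LinearMap.ker (locRes (fun q : Nat.Primes => primeLocalToGlobal q) N q).hom
  have hnot : ∀ (T : Finset Nat.Primes) (q : Nat.Primes),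
      (q : ℕ) ∉ S ∪ T₀ ∪ T.image (fun q : Nat.Primes => (q : ℕ)) →
        q ∉ T ∧ (q : ℕ) ∉ S ∧ (q : ℕ) ∉ T₀ := by
    intro T q hq
    simp only [Finset.mem_union, not_or] at hq
    exact ⟨fun h => hq.2 (Finset.mem_image_of_mem _ h), hq.1.1, hq.1.2⟩
  obtain ⟨Q, hcard, hgood, hQ⟩ := exists_finset_killing (continuousH1S S₀ N) Z good
    (fun T x hx hx0 => by
      obtain ⟨q, h1, h2, h3, h4, h5⟩ := Main.exists_prime_kill_ad0 p hp2 ρbar habs hdet hsplit hTW
        hGT b S₀ n (S ∪ T₀ ∪ T.image (fun q : Nat.Primes => (q : ℕ))) hx hx0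
      obtain ⟨hT, hS, hT₀⟩ := hnot T q h1
      exact ⟨q, hT, ⟨hS, hT₀, h2, h3, h4⟩, fun hmem => h5 (LinearMap.mem_ker.1 hmem)⟩)
    (fun T => by
      obtain ⟨q, h1, h2, h3, h4⟩ := Main.exists_prime_tw p hp2 ρbar habs hdet hsplit hTW n
        (S ∪ T₀ ∪ T.image (fun q : Nat.Primes => (q : ℕ)))
      obtain ⟨hT, hS, hT₀⟩ := hnot T q h1
      exact ⟨q, hT, hS, hT₀, h2, h3, h4⟩)
  let e : ↥Q ≃ Fin (finrank (ZMod p) (continuousH1S S₀ N)) := Finset.equivFinOfCardEq hcard
  refine ⟨fun i => (((e.symm i : ↥Q) : Nat.Primes) : ℕ), ⟨?_, ?_, ?_⟩, ?_, ?_, ?_⟩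
  · intro i j hij
    exact e.symm.injective (Subtype.ext (Subtype.ext hij))
  · intro i
    have hg := hgood _ (e.symm i).2
    exact ⟨((e.symm i : ↥Q) : Nat.Primes).2, hg.1, hg.2.2.2.1⟩
  · intro i
    exact (hgood _ (e.symm i).2).2.2.2.2
  · intro i
    exact (hgood _ (e.symm i).2).2.1
  · intro i
    exact (hgood _ (e.symm i).2).2.2.1
  · intro x hx hloc
    refine hQ x hx fun q hq => LinearMap.mem_ker.2 (hloc q ?_)
    rw [mem_toPrimes, Finset.mem_image]
    refine ⟨e ⟨q, hq⟩, Finset.mem_univ _, ?_⟩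
    simp

end Fermat.Agent.S56x.Kill.Family
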