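/-
P-S56 (Taylor–Wiles primes), block (D) GROUP THEORY, file D6 (helper64): ASSEMBLY of the choice
of `σ` (DDT Theorem 2.49, Wiles Lemma 1.12) in the matrix / cocycle language of
`Group/Cocycle.lean` (helper19) and `Group/SigmaChoice{,Tw}.lean` (helper98).

Setting: an abstract group `G` (think `G_ℚ`), `ρ : G →* GL₂(k)` (`char k ≠ 2`),
`χ : G →* Z` with `Z` cyclic (think the cyclotomic character mod `p^(n+1)`) such that
`det ρ = 1` on `ker χ`, and a cocycle `ψ : G → M₂(k)` (trace zero) for the twisted adjoint action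
`adTwMat g X = det g • g X g⁻¹` (i.e. a cocycle with values in `ad⁰ ρ (1)`).

* `eq_zero_of_forall_adTwMat_eq` : `(ad⁰(1))^N = 0` when `ρ|_N` has no stable line over `K`
  and `det ρ = 1` on `N` (Schur);
* `eq_zero_of_map_eq_one` : the central-`P` step: if `ψ` vanishes on
  `ker ρ ∩ ker χ` then it vanishes on `ker ρ`;
* `isCoboundary_of_kerLift` : a cocycle vanishing on `ker ρ` descends to `G ⧸ ker ρ`;
* `exists_good_sigma_of_not_isCoboundary` (GOODSIGMA) : if `ψ` is not a coboundary then there is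
  `σ` with `χ σ = 1`, `ρ σ` regular semisimple (`disc ≠ 0`) and `ψ σ ∉ (adTw (ρ σ) - 1) M₂(k)`;
  `exists_good_sigma_charpoly_of_not_isCoboundary` exhibits the eigenvalues `α ≠ β`;
* `forall_ne_conj`, `forall_ne_conj_mul` : the condition
  `ψ σ ∉ (adTw (ρ σ) - 1) M₂(k)` only depends on the conjugacy class of `σ` modulo a subgroup on
  which `ρ` is trivial and `ψ` vanishes (what Chebotarev provides).

The group-theoretic input (GT) `H¹(ρ(G), ad⁰(1)) = 0` (file D4) enters as the hypothesis `hGT`.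
-/
import Fermat.Agent.S56x.Group.Cocycle
import Fermat.Agent.S56x.Group.SigmaChoice
import Fermat.Agent.S56x.Group.SigmaChoiceTw

set_option autoImplicit false

open Matrix

namespace Fermat.Agent.S56x.Kill.GoodSigma

open Fermat.Agent.S56x.Group Fermat.Agent.S56x.Group.SigmaChoice

variable {k : Type*} [Field k] {K : Type*} [Field K] [Algebra k K] {G : Type*} [Group G]

/-- **Schur.** If `ρ|_N` has no stable line over the algebraically closed `K` and `det ρ = 1` on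
`N`, then no nonzero traceless matrix is fixed by the twisted adjoint action of `N`:
`(ad⁰(1))^N = 0`. -/
theorem eq_zero_of_forall_adTwMat_eq [IsAlgClosed K] (h2 : (2 : k) ≠ 0) (r : G →* GL (Fin 2) k)
    (N : Subgroup G) (hdet : ∀ σ ∈ N, (r σ : Matrix (Fin 2) (Fin 2) k).det = 1)
    (hirr : ¬ StableLineOver K r N) {m : Matrix (Fin 2) (Fin 2) k} (hm : m.trace = 0)
    (hfix : ∀ σ ∈ N, adTwMat (r σ) m = m) : m = 0 := by
  by_contra hm0
  apply hirr
  have hinj : Function.Injective (algebraMap k K) := (algebraMap k K).injective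
  have h2K : (2 : K) ≠ 0 := by
    have : (2 : K) = algebraMap k K 2 := (map_ofNat (algebraMap k K) 2).symm
    rw [this]; exact fun h => h2 (hinj (by rw [h, map_zero]))
  set Y : Matrix (Fin 2) (Fin 2) K := m.map (algebraMap k K) with hY
  have hYns : ∀ a : K, Y ≠ a • (1 : Matrix (Fin 2) (Fin 2) K) := by
    intro a ha
    have htrY : Y.trace = 0 := by rw [hY, trace_map_algebraMap, hm, map_zero]
    rw [ha, Matrix.trace_smul, Matrix.trace_one, Fintype.card_fin, smul_eq_mul] at htrY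
    have ha0 : a = 0 := by
      rcases mul_eq_zero.mp htrY with h | h
      · exact h
      · exact absurd (by exact_mod_cast h) h2K
    apply hm0
    ext i j
    have h1 := congrFun (congrFun ha i) j
    rw [ha0, zero_smul, hY, Matrix.map_apply, Matrix.zero_apply] at h1
    rw [Matrix.zero_apply]
    exact hinj (by rw [h1, map_zero])
  obtain ⟨v, hv0, hv⟩ := exists_common_eigenvector_of_commute hYns
    {g | ∃ σ ∈ N, g = (r σ : Matrix (Fin 2) (Fin 2) k).map (algebraMap k K)} (by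
      rintro g ⟨σ, hσ, rfl⟩
      have h1 := hfix σ hσ
      rw [adTwMat_eq_conj_of_det_eq_one (hdet σ hσ)] at h1
      have h3 : (r σ : Matrix (Fin 2) (Fin 2) k) * m = m * (r σ : Matrix (Fin 2) (Fin 2) k) := by
        calc (r σ : Matrix (Fin 2) (Fin 2) k) * m
            = (r σ : Matrix (Fin 2) (Fin 2) k) * m *
                (((r σ)⁻¹ : GL (Fin 2) k) : Matrix (Fin 2) (Fin 2) k) *
                  (r σ : Matrix (Fin 2) (Fin 2) k) := by
              rw [Matrix.mul_assoc _ _ (r σ : Matrix (Fin 2) (Fin 2) k), Units.inv_mul,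
                Matrix.mul_one]
          _ = m * (r σ : Matrix (Fin 2) (Fin 2) k) := by rw [h1]
      rw [hY, ← Matrix.map_mul, ← Matrix.map_mul, h3])
  exact ⟨v, hv0, fun g hg => hv _ ⟨g, hg, rfl⟩⟩

/-- **Central-`P` step.** Let `χ : G →* Z` with `Z` commutative, and suppose `(ad⁰(1))^G = 0`.
A cocycle `ψ` vanishing on `ker ρ ∩ ker χ` vanishes on `ker ρ`
(`ψ|_{ker ρ}` is then a `G`-equivariant homomorphism on the central quotient
`ker ρ / (ker ρ ∩ ker χ)`, with values in the invariants). -/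
theorem eq_zero_of_map_eq_one {Z : Type*} [CommGroup Z] {r : G →* GL (Fin 2) k}
    (χ : G →* Z) {ψ : G → Matrix (Fin 2) (Fin 2) k} (hψ : IsCocycle r ψ)
    (htr : ∀ g, (ψ g).trace = 0)
    (hinv : ∀ m : Matrix (Fin 2) (Fin 2) k, m.trace = 0 → (∀ g : G, adTwMat (r g) m = m) → m = 0)
    (hH : ∀ τ : G, r τ = 1 → χ τ = 1 → ψ τ = 0) :
    ∀ ν : G, r ν = 1 → ψ ν = 0 := by
  intro ν hν
  apply hinv _ (htr ν)
  intro g
  have hr : r (g * ν * g⁻¹) = 1 := by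
    rw [map_mul, map_mul, hν, mul_one, ← map_mul, mul_inv_cancel, map_one]
  have h1 := hψ.map_conj g ν
  rw [hr, adTwMat_one, add_sub_cancel_right] at h1
  have h2 : ψ (g * ν * g⁻¹) = ψ ν := by
    have hc : g * ν * g⁻¹ = (g * ν * g⁻¹ * ν⁻¹) * ν := by group
    have hrc : r (g * ν * g⁻¹ * ν⁻¹) = 1 := by
      rw [map_mul, hr, map_inv, hν, inv_one, one_mul]
    have hχc : χ (g * ν * g⁻¹ * ν⁻¹) = 1 := by
      simp only [map_mul, map_inv]
      rw [mul_comm (χ g) (χ ν), mul_inv_cancel_right, mul_inv_cancel]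
    rw [hc, hψ _ ν, hH _ hrc hχc, hrc, adTwMat_one, zero_add]
  rw [← h1, h2]

/-- **Descent to the image.** A cocycle vanishing on `ker ρ` is inflated from `G ⧸ ker ρ ≅ ρ(G)`;
if all (trace-zero) cocycles of `G ⧸ ker ρ` are coboundaries then it is a coboundary. -/
theorem isCoboundary_of_kerLift (ρ : G →* GL (Fin 2) k)
    (hGT : ∀ ψ' : G ⧸ ρ.ker → Matrix (Fin 2) (Fin 2) k, IsCocycle (QuotientGroup.kerLift ρ) ψ' →
      (∀ x, (ψ' x).trace = 0) → IsCoboundary (QuotientGroup.kerLift ρ) ψ')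
    {ψ : G → Matrix (Fin 2) (Fin 2) k} (hψ : IsCocycle ρ ψ) (htr : ∀ g, (ψ g).trace = 0)
    (hker : ∀ ν : G, ρ ν = 1 → ψ ν = 0) : IsCoboundary ρ ψ := by
  have hconst : ∀ a b : G, QuotientGroup.leftRel ρ.ker a b → ψ a = ψ b := by
    intro a b hab
    rw [QuotientGroup.leftRel_apply] at hab
    have hb : b = a * (a⁻¹ * b) := by group
    rw [hb, hψ a _, hker _ (MonoidHom.mem_ker.mp hab), adTwMat_zero, add_zero]
  let ψ' : G ⧸ ρ.ker → Matrix (Fin 2) (Fin 2) k := Quotient.lift ψ hconst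
  have hψ'mk : ∀ g : G, ψ' (QuotientGroup.mk g) = ψ g := fun g => rfl
  obtain ⟨m, hm, hcob⟩ := hGT ψ' (by
      intro x y
      induction x using QuotientGroup.induction_on with
      | H a =>
        induction y using QuotientGroup.induction_on with
        | H b =>
          rw [← QuotientGroup.mk_mul, hψ'mk, hψ'mk, hψ'mk, QuotientGroup.kerLift_mk]
          exact hψ a b) (by
      intro x
      induction x using QuotientGroup.induction_on with
      | H a => rw [hψ'mk]; exact htr a)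
  refine ⟨m, hm, fun g => ?_⟩
  have := hcob (QuotientGroup.mk g)
  rwa [hψ'mk, QuotientGroup.kerLift_mk] at this

/-- **(GOODSIGMA), assembled.** `ρ : G →* GL₂(k)` (`char k ≠ 2`), `χ : G →* Z` with `Z` cyclic and
`det ρ = 1` on `ker χ`; `ρ` has no stable line over `K` on `G` and on its subgroups of index two;
`hGT`: every trace-zero cocycle inflated from `ρ(G)` is a coboundary.
If the trace-zero cocycle `ψ` (twisted adjoint action) is not a coboundary then there is `σ ∈ G`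
with `χ σ = 1`, `disc (ρ σ) ≠ 0` and `ψ σ ∉ (adTw (ρ σ) - 1) M₂(k)`. -/
theorem exists_good_sigma_of_not_isCoboundary [IsAlgClosed K] (h2 : (2 : k) ≠ 0)
    {Z : Type*} [CommGroup Z] [IsCyclic Z] (ρ : G →* GL (Fin 2) k) (χ : G →* Z)
    (hdet : ∀ σ : G, χ σ = 1 → (ρ σ : Matrix (Fin 2) (Fin 2) k).det = 1)
    (hG : ¬ StableLineOver K ρ ⊤)
    (hH : ∀ H : Subgroup G, H.index = 2 → ¬ StableLineOver K ρ H)
    (hGT : ∀ ψ' : G → Matrix (Fin 2) (Fin 2) k, IsCocycle ρ ψ' → (∀ g, (ψ' g).trace = 0) →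
      (∀ ν : G, ρ ν = 1 → ψ' ν = 0) → IsCoboundary ρ ψ')
    {ψ : G → Matrix (Fin 2) (Fin 2) k} (hψ : IsCocycle ρ ψ) (htr : ∀ g, (ψ g).trace = 0)
    (hncob : ¬ IsCoboundary ρ ψ) :
    ∃ σ : G, χ σ = 1 ∧ disc (ρ σ : Matrix (Fin 2) (Fin 2) k) ≠ 0 ∧
      ∀ B : Matrix (Fin 2) (Fin 2) k, adTwMat (ρ σ) B - B ≠ ψ σ := by
  have hirrN : ¬ StableLineOver K ρ χ.ker := not_stableLineOver_ker_of_isCyclic ρ χ hG hH
  have hdetN : ∀ σ ∈ χ.ker, (ρ σ : Matrix (Fin 2) (Fin 2) k).det = 1 :=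
    fun σ hσ => hdet σ (MonoidHom.mem_ker.mp hσ)
  have hinv : ∀ m : Matrix (Fin 2) (Fin 2) k, m.trace = 0 →
      (∀ g : G, adTwMat (ρ g) m = m) → m = 0 :=
    fun m hm hfix => eq_zero_of_forall_adTwMat_eq (K := K) h2 ρ χ.ker hdetN hirrN hm
      (fun σ _ => hfix σ)
  have hex : ∃ τ₀ : G, ρ τ₀ = 1 ∧ χ τ₀ = 1 ∧ ψ τ₀ ≠ 0 := by
    by_contra hcon
    push Not at hcon
    exact hncob (hGT ψ hψ htr (eq_zero_of_map_eq_one χ hψ htr hinv hcon))
  obtain ⟨τ₀, hτρ, hτχ, hτψ⟩ := hex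
  obtain ⟨σ, hσN, hd, hB⟩ := exists_good_sigma (K := K) h2 ρ hψ htr χ.ker hdetN hirrN
    (MonoidHom.mem_ker.mpr hτχ) hτρ hτψ
  exact ⟨σ, MonoidHom.mem_ker.mp hσN, hd, hB⟩

open Polynomial in
/-- (GOODSIGMA) with the two distinct eigenvalues exhibited from a splitting hypothesis. -/
theorem exists_good_sigma_charpoly_of_not_isCoboundary [IsAlgClosed K] (h2 : (2 : k) ≠ 0)
    {Z : Type*} [CommGroup Z] [IsCyclic Z] (ρ : G →* GL (Fin 2) k) (χ : G →* Z)
    (hdet : ∀ σ : G, χ σ = 1 → (ρ σ : Matrix (Fin 2) (Fin 2) k).det = 1)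
    (hG : ¬ StableLineOver K ρ ⊤)
    (hH : ∀ H : Subgroup G, H.index = 2 → ¬ StableLineOver K ρ H)
    (hsplit : ∀ g : G, ∃ α β : k,
      (ρ g : Matrix (Fin 2) (Fin 2) k).charpoly = (X - C α) * (X - C β))
    (hGT : ∀ ψ' : G → Matrix (Fin 2) (Fin 2) k, IsCocycle ρ ψ' → (∀ g, (ψ' g).trace = 0) →
      (∀ ν : G, ρ ν = 1 → ψ' ν = 0) → IsCoboundary ρ ψ')
    {ψ : G → Matrix (Fin 2) (Fin 2) k} (hψ : IsCocycle ρ ψ) (htr : ∀ g, (ψ g).trace = 0)
    (hncob : ¬ IsCoboundary ρ ψ) :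
    ∃ σ : G, χ σ = 1 ∧ (∃ α β : k, α ≠ β ∧
        (ρ σ : Matrix (Fin 2) (Fin 2) k).charpoly = (X - C α) * (X - C β)) ∧
      ∀ B : Matrix (Fin 2) (Fin 2) k, adTwMat (ρ σ) B - B ≠ ψ σ := by
  obtain ⟨σ, hσ, hd, hB⟩ :=
    exists_good_sigma_of_not_isCoboundary (K := K) h2 ρ χ hdet hG hH hGT hψ htr hncob
  obtain ⟨α, β, hαβ⟩ := hsplit σ
  exact ⟨σ, hσ, ⟨α, β, ne_of_charpoly_eq hd hαβ, hαβ⟩, hB⟩

/-- (GOODSIGMA) with the input (GT) in the shape "all trace-zero cocycles of `G ⧸ ker ρ ≅ ρ(G)`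
are coboundaries" (the shape produced by file D4 applied to `QuotientGroup.kerLift ρ`, which is
injective). -/
theorem exists_good_sigma_of_kerLift [IsAlgClosed K] (h2 : (2 : k) ≠ 0)
    {Z : Type*} [CommGroup Z] [IsCyclic Z] (ρ : G →* GL (Fin 2) k) (χ : G →* Z)
    (hdet : ∀ σ : G, χ σ = 1 → (ρ σ : Matrix (Fin 2) (Fin 2) k).det = 1)
    (hG : ¬ StableLineOver K ρ ⊤)
    (hH : ∀ H : Subgroup G, H.index = 2 → ¬ StableLineOver K ρ H)
    (hGT : ∀ ψ' : G ⧸ ρ.ker → Matrix (Fin 2) (Fin 2) k, IsCocycle (QuotientGroup.kerLift ρ) ψ' →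
      (∀ x, (ψ' x).trace = 0) → IsCoboundary (QuotientGroup.kerLift ρ) ψ')
    {ψ : G → Matrix (Fin 2) (Fin 2) k} (hψ : IsCocycle ρ ψ) (htr : ∀ g, (ψ g).trace = 0)
    (hncob : ¬ IsCoboundary ρ ψ) :
    ∃ σ : G, χ σ = 1 ∧ disc (ρ σ : Matrix (Fin 2) (Fin 2) k) ≠ 0 ∧
      ∀ B : Matrix (Fin 2) (Fin 2) k, adTwMat (ρ σ) B - B ≠ ψ σ :=
  exists_good_sigma_of_not_isCoboundary (K := K) h2 ρ χ hdet hG hH
    (fun _ hψ' htr' hker' => isCoboundary_of_kerLift ρ hGT hψ' htr' hker') hψ htr hncob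

/-- The condition `ψ σ ∉ (adTw (ρ σ) - 1) M₂(k)` is invariant under conjugation of `σ`. -/
theorem forall_ne_conj {r : G →* GL (Fin 2) k} {ψ : G → Matrix (Fin 2) (Fin 2) k}
    (hψ : IsCocycle r ψ) (σ τ : G)
    (h : ∀ B : Matrix (Fin 2) (Fin 2) k, adTwMat (r σ) B - B ≠ ψ σ) :
    ∀ B : Matrix (Fin 2) (Fin 2) k, adTwMat (r (τ * σ * τ⁻¹)) B - B ≠ ψ (τ * σ * τ⁻¹) := by
  intro B hB
  apply h (adTwMat (r τ⁻¹) (B + ψ τ))
  rw [hψ.map_conj τ σ] at hB
  -- `adTw (τ σ τ⁻¹) (B + ψ τ) - (B + ψ τ) = adTw τ (ψ σ)`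
  have h1 : adTwMat (r (τ * σ * τ⁻¹)) (B + ψ τ) - (B + ψ τ) = adTwMat (r τ) (ψ σ) := by
    rw [adTwMat_add]
    have : adTwMat (r (τ * σ * τ⁻¹)) B = adTwMat (r τ) (ψ σ) + ψ τ -
        adTwMat (r (τ * σ * τ⁻¹)) (ψ τ) + B := by rw [← hB]; abel
    rw [this]; abel
  have h2 := congrArg (adTwMat (r τ⁻¹)) h1
  rw [adTwMat_sub, ← adTwMat_mul, ← adTwMat_mul, ← map_mul, ← map_mul] at h2
  have e1 : τ⁻¹ * (τ * σ * τ⁻¹) = σ * τ⁻¹ := by group
  rw [e1, inv_mul_cancel, map_one, adTwMat_one, map_mul, adTwMat_mul] at h2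
  exact h2

/-- The condition `disc (ρ σ) ≠ 0 ∧ ψ σ ∉ (adTw (ρ σ) - 1) M₂(k)` only depends on the conjugacy
class of `σ` modulo elements `u` with `ρ u = 1` and `ψ u = 0`. -/
theorem forall_ne_conj_mul {r : G →* GL (Fin 2) k} {ψ : G → Matrix (Fin 2) (Fin 2) k}
    (hψ : IsCocycle r ψ) (σ τ u : G) (hur : r u = 1) (hu : ψ u = 0)
    (h : ∀ B : Matrix (Fin 2) (Fin 2) k, adTwMat (r σ) B - B ≠ ψ σ) :
    ∀ B : Matrix (Fin 2) (Fin 2) k,
      adTwMat (r (τ * σ * τ⁻¹ * u)) B - B ≠ ψ (τ * σ * τ⁻¹ * u) := by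
  have hr : r (τ * σ * τ⁻¹ * u) = r (τ * σ * τ⁻¹) := by rw [map_mul _ _ u, hur, mul_one]
  have hp : ψ (τ * σ * τ⁻¹ * u) = ψ (τ * σ * τ⁻¹) := by rw [hψ _ u, hu, adTwMat_zero, add_zero]
  rw [hr, hp]
  exact forall_ne_conj hψ σ τ h

/-- `disc (ρ (τ σ τ⁻¹ u)) = disc (ρ σ)` when `ρ u = 1`. -/
theorem disc_conj_mul (r : G →* GL (Fin 2) k) (σ τ u : G) (hur : r u = 1) :
    disc (r (τ * σ * τ⁻¹ * u) : Matrix (Fin 2) (Fin 2) k) =
      disc (r σ : Matrix (Fin 2) (Fin 2) k) := by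
  have hr : r (τ * σ * τ⁻¹ * u) = r τ * r σ * (r τ)⁻¹ := by
    rw [map_mul _ _ u, hur, mul_one, map_mul, map_mul, map_inv]
  rw [hr]
  unfold disc
  have h1 : ((r τ * r σ * (r τ)⁻¹ : GL (Fin 2) k) : Matrix (Fin 2) (Fin 2) k) =
      (r τ : Matrix (Fin 2) (Fin 2) k) * (r σ : Matrix (Fin 2) (Fin 2) k) *
        (((r τ)⁻¹ : GL (Fin 2) k) : Matrix (Fin 2) (Fin 2) k) := by
    simp only [Units.val_mul]
  rw [h1, Matrix.trace_units_conj, Matrix.det_units_conj]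

/-- `(ZMod (p ^ n))ˣ` is cyclic for odd `p` (re-export of `ZMod.isCyclic_units_of_prime_pow`), so
that (GOODSIGMA) applies to the mod `p ^ (n+1)` cyclotomic character. -/
theorem isCyclic_units_zmod_prime_pow (p : ℕ) [hp : Fact p.Prime] (hp2 : p ≠ 2) (n : ℕ) :
    IsCyclic (ZMod (p ^ n))ˣ :=
  ZMod.isCyclic_units_of_prime_pow p hp.out hp2 n

end Fermat.Agent.S56x.Kill.GoodSigma
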