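/-
P-S56 (Taylor–Wiles primes), block (D), helper64: transfer of the hypotheses of (GOODSIGMA) from
`ρ : G →* GL₂(k)` to the injective representation `QuotientGroup.kerLift ρ : G ⧸ ker ρ →* GL₂(k)`
of the finite group `G ⧸ ker ρ ≅ ρ(G)`, so that the group-theoretic theorem (GT) of file D4
(stated for a finite group with an injective representation) can be plugged into
`Kill/GoodSigma.lean`.
-/
import Fermat.Agent.S56x.Kill.GoodSigma

set_option autoImplicit false

open Matrix

namespace Fermat.Agent.S56x.Kill.QuotTransfer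

open Fermat.Agent.S56x.Group Fermat.Agent.S56x.Group.SigmaChoice

variable {k : Type*} [Field k] {K : Type*} [Field K] [Algebra k K] {G : Type*} [Group G]

/-- `G ⧸ ker ρ` is finite when `k` is. -/
theorem finite_quotient_ker [Finite k] (ρ : G →* GL (Fin 2) k) : Finite (G ⧸ ρ.ker) :=
  Finite.of_injective _ (QuotientGroup.kerLift_injective ρ)

/-- A stable line for `kerLift ρ` on `H̄` is a stable line for `ρ` on the preimage of `H̄`. -/
theorem stableLineOver_comap (ρ : G →* GL (Fin 2) k) (H : Subgroup (G ⧸ ρ.ker))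
    (h : StableLineOver K (QuotientGroup.kerLift ρ) H) :
    StableLineOver K ρ (H.comap (QuotientGroup.mk' ρ.ker)) := by
  obtain ⟨v, hv0, hv⟩ := h
  refine ⟨v, hv0, fun g hg => ?_⟩
  have := hv (QuotientGroup.mk g) (Subgroup.mem_comap.mp hg)
  rwa [QuotientGroup.kerLift_mk] at this

/-- No stable line on `G` for `ρ` ⟹ no stable line on `G ⧸ ker ρ` for `kerLift ρ`. -/
theorem not_stableLineOver_top (ρ : G →* GL (Fin 2) k) (hG : ¬ StableLineOver K ρ ⊤) :
    ¬ StableLineOver K (QuotientGroup.kerLift ρ) ⊤ := by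
  intro h
  apply hG
  have := stableLineOver_comap ρ ⊤ h
  rwa [Subgroup.comap_top] at this

/-- No stable line on the index-two subgroups of `G` ⟹ the same for `G ⧸ ker ρ`. -/
theorem not_stableLineOver_of_index_two (ρ : G →* GL (Fin 2) k)
    (hH : ∀ H : Subgroup G, H.index = 2 → ¬ StableLineOver K ρ H)
    (H : Subgroup (G ⧸ ρ.ker)) (hidx : H.index = 2) :
    ¬ StableLineOver K (QuotientGroup.kerLift ρ) H := by
  intro h
  refine hH (H.comap (QuotientGroup.mk' ρ.ker)) ?_ (stableLineOver_comap ρ H h)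
  rw [Subgroup.index_comap_of_surjective H (QuotientGroup.mk'_surjective ρ.ker), hidx]

/-- Values of `det ∘ ρ` are values of `det ∘ kerLift ρ`. -/
theorem exists_det_kerLift (ρ : G →* GL (Fin 2) k) {a : k}
    (h : ∃ g : G, (ρ g : Matrix (Fin 2) (Fin 2) k).det = a) :
    ∃ x : G ⧸ ρ.ker, (QuotientGroup.kerLift ρ x : Matrix (Fin 2) (Fin 2) k).det = a := by
  obtain ⟨g, hg⟩ := h
  exact ⟨QuotientGroup.mk g, by rw [QuotientGroup.kerLift_mk]; exact hg⟩

/-- Splitting of the characteristic polynomials transfers to `kerLift ρ`. -/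
theorem charpoly_split_kerLift (ρ : G →* GL (Fin 2) k)
    (hsplit : ∀ g : G, ∃ α β : k, (ρ g : Matrix (Fin 2) (Fin 2) k).charpoly =
      (Polynomial.X - Polynomial.C α) * (Polynomial.X - Polynomial.C β))
    (x : G ⧸ ρ.ker) : ∃ α β : k,
      (QuotientGroup.kerLift ρ x : Matrix (Fin 2) (Fin 2) k).charpoly =
        (Polynomial.X - Polynomial.C α) * (Polynomial.X - Polynomial.C β) := by
  induction x using QuotientGroup.induction_on with
  | H g => rw [QuotientGroup.kerLift_mk]; exact hsplit g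

/-- **(GOODSIGMA) from (GT) on the image.**  Package: if a statement `GT` holding for every finite
group `Γ` with an injective `r : Γ →* GL₂(k)` satisfying the (transferred) irreducibility and
determinant hypotheses yields "all trace-zero cocycles are coboundaries", then (GOODSIGMA) holds
for `ρ`.  The hypothesis `hGT` is stated for the single pair `(G ⧸ ker ρ, kerLift ρ)`. -/
theorem exists_good_sigma_of_GT [IsAlgClosed K] [Finite k] (h2 : (2 : k) ≠ 0)
    {Z : Type*} [CommGroup Z] [IsCyclic Z] (ρ : G →* GL (Fin 2) k) (χ : G →* Z)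
    (hdet : ∀ σ : G, χ σ = 1 → (ρ σ : Matrix (Fin 2) (Fin 2) k).det = 1)
    (hG : ¬ StableLineOver K ρ ⊤)
    (hH : ∀ H : Subgroup G, H.index = 2 → ¬ StableLineOver K ρ H)
    (hGT : Finite (G ⧸ ρ.ker) → Function.Injective (QuotientGroup.kerLift ρ) →
      ¬ StableLineOver K (QuotientGroup.kerLift ρ) ⊤ →
      (∀ H : Subgroup (G ⧸ ρ.ker), H.index = 2 →
        ¬ StableLineOver K (QuotientGroup.kerLift ρ) H) →
      ∀ ψ' : G ⧸ ρ.ker → Matrix (Fin 2) (Fin 2) k, IsCocycle (QuotientGroup.kerLift ρ) ψ' →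
        (∀ x, (ψ' x).trace = 0) → IsCoboundary (QuotientGroup.kerLift ρ) ψ')
    {ψ : G → Matrix (Fin 2) (Fin 2) k} (hψ : IsCocycle ρ ψ) (htr : ∀ g, (ψ g).trace = 0)
    (hncob : ¬ IsCoboundary ρ ψ) :
    ∃ σ : G, χ σ = 1 ∧ disc (ρ σ : Matrix (Fin 2) (Fin 2) k) ≠ 0 ∧
      ∀ B : Matrix (Fin 2) (Fin 2) k, adTwMat (ρ σ) B - B ≠ ψ σ :=
  GoodSigma.exists_good_sigma_of_kerLift (K := K) h2 ρ χ hdet hG hH
    (hGT (finite_quotient_ker ρ) (QuotientGroup.kerLift_injective ρ)
      (not_stableLineOver_top ρ hG) (not_stableLineOver_of_index_two ρ hH)) hψ htr hncob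

end Fermat.Agent.S56x.Kill.QuotTransfer
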