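/-
P-S56 (Taylor–Wiles primes), block (D), helper64: plug-in of the group-theoretic theorem
`Group/DMain.isCoboundary_of_irreducible_of_T` (helper19) into (GOODSIGMA).

* `exists_det_one_not_eigen` : the hypothesis `hirr` of DMain (`ker det` has no stable line in
  `k²`) from the `StableLineOver` hypotheses (Clifford lemma for the cyclic group `kˣ`);
* `gtStatement_of_T` : the statement (GT) "every trace-zero cocycle of `G` vanishing on `ker ρ` is
  a coboundary" for `ρ : G →* GL₂(k)`, `k` finite of odd characteristic, from the numerical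
  estimate `(T)` (`TStatement`) on `G ⧸ ker ρ`;
* `exists_good_sigma_of_T`, `exists_good_sigma_charpoly_of_T` : (GOODSIGMA) with `(T)` as the only
  remaining hypothesis.
-/
import Fermat.Agent.S56x.Group.DMain
import Fermat.Agent.S56x.Kill.QuotTransfer

set_option autoImplicit false

open Matrix

namespace Fermat.Agent.S56x.Kill.Final

open Fermat.Agent.S56x.Group Fermat.Agent.S56x.Group.SigmaChoice

variable {k : Type*} [Field k] {K : Type*} [Field K] [Algebra k K] {G : Type*} [Group G]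

/-- If `r` has no stable line over `K` on `G` and on its index-two subgroups, then the kernel of
`det ∘ r` has no stable line in `k²` (`k` finite, so that `kˣ` is cyclic). -/
theorem exists_det_one_not_eigen [IsAlgClosed K] [Finite k] (r : G →* GL (Fin 2) k)
    (hG : ¬ StableLineOver K r ⊤)
    (hH : ∀ H : Subgroup G, H.index = 2 → ¬ StableLineOver K r H)
    (v : Fin 2 → k) (hv : v ≠ 0) :
    ∃ g : G, ((r g : GL (Fin 2) k) : Matrix (Fin 2) (Fin 2) k).det = 1 ∧
      ∀ c : k, ((r g : GL (Fin 2) k) : Matrix (Fin 2) (Fin 2) k) *ᵥ v ≠ c • v := by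
  have hN : ¬ StableLineOver K r (detHom r).ker :=
    not_stableLineOver_ker_of_isCyclic r (detHom r) hG hH
  by_contra hcon
  push Not at hcon
  apply hN
  have hinj : Function.Injective (algebraMap k K) := (algebraMap k K).injective
  refine ⟨fun i => algebraMap k K (v i), ?_, fun g hg => ?_⟩
  · intro h0
    apply hv
    funext i
    have := congrFun h0 i
    simp only [Pi.zero_apply] at this ⊢
    exact hinj (by rw [this, map_zero])
  · obtain ⟨c, hc⟩ := hcon g ((mem_ker_detHom r).mp hg)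
    refine ⟨algebraMap k K c, ?_⟩
    funext i
    have h1 := RingHom.map_mulVec (algebraMap k K)
      ((r g : GL (Fin 2) k) : Matrix (Fin 2) (Fin 2) k) v i
    have h2 : ((fun i => algebraMap k K (v i)) : Fin 2 → K) = (algebraMap k K) ∘ v := rfl
    rw [h2, ← h1, hc]
    simp only [Pi.smul_apply, smul_eq_mul, map_mul, Function.comp_apply]

/-- **(GT) from (T).**  `k` finite of odd characteristic `p`, `ρ : G →* GL₂(k)` without stable
line over `K` on `G` and on its subgroups of index two, some `det (ρ g)` is not a square of the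
prime field, and the estimate `(T)` holds for the conjugates of the injective representation
`kerLift ρ` of `G ⧸ ker ρ`.  Then every trace-zero cocycle vanishing on `ker ρ` is a
coboundary. -/
theorem gtStatement_of_T [IsAlgClosed K] {p : ℕ} [Fact p.Prime] [CharP k p] [Finite k]
    (hp2 : p ≠ 2) (ρ : G →* GL (Fin 2) k)
    (hG : ¬ StableLineOver K ρ ⊤)
    (hH : ∀ H : Subgroup G, H.index = 2 → ¬ StableLineOver K ρ H)
    (hns : ∃ g : G, ∀ j : ℕ,
      (j : k) ^ 2 ≠ ((ρ g : GL (Fin 2) k) : Matrix (Fin 2) (Fin 2) k).det)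
    (hT : ∀ g₀ : GL (Fin 2) k, TStatement p (conjRep g₀ (QuotientGroup.kerLift ρ)))
    (ψ : G → Matrix (Fin 2) (Fin 2) k) (hψ : IsCocycle ρ ψ) (htr : ∀ g, (ψ g).trace = 0)
    (hker : ∀ ν : G, ρ ν = 1 → ψ ν = 0) : IsCoboundary ρ ψ := by
  have : Finite (G ⧸ ρ.ker) := QuotTransfer.finite_quotient_ker ρ
  apply GoodSigma.isCoboundary_of_kerLift ρ ?_ hψ htr hker
  intro ψ' hψ' htr'
  refine isCoboundary_of_irreducible_of_T (p := p) hp2 (QuotientGroup.kerLift_injective ρ) hT
    ?_ ?_ hψ' htr'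
  · exact exists_det_one_not_eigen (K := K) (QuotientGroup.kerLift ρ)
      (QuotTransfer.not_stableLineOver_top ρ hG) (QuotTransfer.not_stableLineOver_of_index_two ρ hH)
  · obtain ⟨g, hg⟩ := hns
    exact ⟨QuotientGroup.mk g, fun j => by rw [QuotientGroup.kerLift_mk]; exact hg j⟩

/-- **(GOODSIGMA) from (T).** -/
theorem exists_good_sigma_of_T [IsAlgClosed K] {p : ℕ} [Fact p.Prime] [CharP k p] [Finite k]
    (hp2 : p ≠ 2) {Z : Type*} [CommGroup Z] [IsCyclic Z] (ρ : G →* GL (Fin 2) k) (χ : G →* Z)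
    (hdet : ∀ σ : G, χ σ = 1 → (ρ σ : Matrix (Fin 2) (Fin 2) k).det = 1)
    (hG : ¬ StableLineOver K ρ ⊤)
    (hH : ∀ H : Subgroup G, H.index = 2 → ¬ StableLineOver K ρ H)
    (hns : ∃ g : G, ∀ j : ℕ,
      (j : k) ^ 2 ≠ ((ρ g : GL (Fin 2) k) : Matrix (Fin 2) (Fin 2) k).det)
    (hT : ∀ g₀ : GL (Fin 2) k, TStatement p (conjRep g₀ (QuotientGroup.kerLift ρ)))
    {ψ : G → Matrix (Fin 2) (Fin 2) k} (hψ : IsCocycle ρ ψ) (htr : ∀ g, (ψ g).trace = 0)
    (hncob : ¬ IsCoboundary ρ ψ) :
    ∃ σ : G, χ σ = 1 ∧ disc (ρ σ : Matrix (Fin 2) (Fin 2) k) ≠ 0 ∧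
      ∀ B : Matrix (Fin 2) (Fin 2) k, adTwMat (ρ σ) B - B ≠ ψ σ := by
  have h2 : (2 : k) ≠ 0 := by
    intro h
    have h' : ((2 : ℕ) : k) = 0 := by exact_mod_cast h
    rw [CharP.cast_eq_zero_iff k p] at h'
    exact hp2 ((Nat.prime_dvd_prime_iff_eq Fact.out Nat.prime_two).mp h')
  exact GoodSigma.exists_good_sigma_of_not_isCoboundary (K := K) h2 ρ χ hdet hG hH
    (gtStatement_of_T (K := K) hp2 ρ hG hH hns hT) hψ htr hncob

end Fermat.Agent.S56x.Kill.Final
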