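/-
P-S56 (Taylor–Wiles primes), block (D), helper64: the statement (GT) for the residual
representation, in the shape `EndKill.GTStatement (matRep b ρbar.ρ)` consumed by
`Group/EndKill.exists_good_sigma_of_not_coboundary` (helper95) and by `Kill/Main` (helper21),
from the frozen hypotheses of S56 and the numerical estimate `(T)` (`Group.TStatement`, helper68)
for the conjugates of the injective representation `kerLift (matRep b ρbar.ρ)` of the finite
group `Γℚ ⧸ ker`.
-/
import Fermat.Agent.S56x.Group.EndKill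
import Fermat.Agent.S56x.Group.EndDet
import Fermat.Agent.S56x.Kill.Final

set_option autoImplicit false

open Matrix

namespace Fermat.Agent.S56x.Kill.FinalPrelude

open Fermat.Agent.S56x.Group Fermat.Agent.S56x.Group.SigmaChoice
  Fermat.Agent.S56x.Group.EndAdapter

local notation "Γℚ" => (AlgebraicClosure ℚ ≃ₐ[ℚ] AlgebraicClosure ℚ)

variable {k : Type} [Field k]

/-- `hdet` ⟹ `k` has characteristic `p`. -/
theorem charP_of_detIsCyclotomic (p : ℕ) [Fact p.Prime] (ρbar : ResidualGaloisRep k)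
    (hdet : (GaloisRepAdic.ofResidualGaloisRep ρbar).DetIsCyclotomic p) : CharP k p :=
  (CharP.charP_iff_prime_eq_zero Fact.out).mpr
    (EndGoodSigma.cast_prime_eq_zero_of_detIsCyclotomic p ρbar hdet)

/-- Some determinant of `ρbar` is not a square of the prime field (`p` odd). -/
theorem exists_det_ne_sq (p : ℕ) [Fact p.Prime] (hp2 : p ≠ 2) (ρbar : ResidualGaloisRep k)
    (hdet : (GaloisRepAdic.ofResidualGaloisRep ρbar).DetIsCyclotomic p)
    (b : Module.Basis (Fin 2) k ρbar.V) :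
    ∃ g : Γℚ, ∀ j : ℕ, (j : k) ^ 2 ≠
      ((matRep b ρbar.ρ g : GL (Fin 2) k) : Matrix (Fin 2) (Fin 2) k).det := by
  have := charP_of_detIsCyclotomic p ρbar hdet
  obtain ⟨σ, a, -, hsq, hσ⟩ := EndDet.exists_det_eq_nonsquare p hp2 ρbar hdet
  refine ⟨σ, fun j hj => hsq ?_⟩
  rw [matRep_val, det_toMatrix_eq, hσ] at hj
  have h1 : ((j ^ 2 : ℕ) : k) = ((a : ℕ) : k) := by rw [Nat.cast_pow]; exact hj
  have h2 : ((j ^ 2 : ℕ) : ZMod p) = ((a : ℕ) : ZMod p) := by
    rw [ZMod.natCast_eq_natCast_iff]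
    exact (CharP.natCast_eq_natCast k p).mp h1
  refine ⟨(j : ZMod p), ?_⟩
  rw [← h2, Nat.cast_pow, sq]

/-- **(GT) for `ρbar`** from the frozen hypotheses and `(T)`. -/
theorem gtStatement_matRep (p : ℕ) [Fact p.Prime] (hp2 : p ≠ 2) [Finite k]
    (ρbar : ResidualGaloisRep k) (habs : ρbar.IsAbsolutelyIrreducible)
    (hdet : (GaloisRepAdic.ofResidualGaloisRep ρbar).DetIsCyclotomic p)
    (hTW : ∀ (K : Type) [Field K] [Algebra k K] (G : Subgroup Γℚ), G.index = 2 →
      ∀ V : Submodule K (ρbar.baseChange K).V,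
        (∀ σ ∈ G, ∀ x ∈ V, (ρbar.baseChange K).ρ σ x ∈ V) → V = ⊥ ∨ V = ⊤)
    (b : Module.Basis (Fin 2) k ρbar.V)
    (hT : ∀ g₀ : GL (Fin 2) k,
      TStatement p (conjRep g₀ (QuotientGroup.kerLift (matRep b ρbar.ρ)))) :
    EndKill.GTStatement (matRep b ρbar.ρ) := by
  have := charP_of_detIsCyclotomic p ρbar hdet
  intro ψ hψ htr hker
  exact Final.gtStatement_of_T (K := AlgebraicClosure k) hp2 (matRep b ρbar.ρ)
    (not_stableLineOver_top ρbar habs b)
    (fun H hH => not_stableLineOver_of_index_two ρbar hTW b (AlgebraicClosure k) H hH)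
    (exists_det_ne_sq p hp2 ρbar hdet b) hT ψ hψ htr hker

end Fermat.Agent.S56x.Kill.FinalPrelude
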