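/-
P-S56 (Taylor–Wiles primes), block (D), helper64: the determinant of a residual representation
with cyclotomic determinant takes every value of `𝔽_p^×` (surjectivity of the mod `p` cyclotomic
character of `G_ℚ`, from the irreducibility of the cyclotomic polynomial).  This is the input of
the Frattini step of (GT): `det (ρ(G)) ⊄ squares`.
-/
import Mathlib
import Fermat.Prelude.Def_GaloisRep_LocalConditions

set_option autoImplicit false

open Polynomial

namespace Fermat.Agent.S56x.Kill.DetSurj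

local notation "Qb" => AlgebraicClosure ℚ
local notation "Γℚ" => (AlgebraicClosure ℚ ≃ₐ[ℚ] AlgebraicClosure ℚ)

/-- `ℚbar / ℚ` is normal (for the `ℚ`-algebra structure used by `G_ℚ`). -/
theorem normal_algebraicClosure_rat :
    @Normal ℚ (AlgebraicClosure ℚ) _ _ DivisionRing.toRatAlgebra := by
  have h : (DivisionRing.toRatAlgebra : Algebra ℚ (AlgebraicClosure ℚ)) =
      AlgebraicClosure.instAlgebra ℚ := Subsingleton.elim _ _
  rw [h]
  infer_instance

/-- For a primitive `N`-th root of unity `ζ ∈ ℚbar` and `a` prime to `N` there is `σ ∈ G_ℚ` with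
`σ ζ = ζ ^ a`. -/
theorem exists_map_eq_pow {N : ℕ} [NeZero N] {ζ : Qb} (hζ : IsPrimitiveRoot ζ N) {a : ℕ}
    (ha : a.Coprime N) : ∃ σ : Γℚ, σ ζ = ζ ^ a := by
  have hirr : Irreducible (cyclotomic N ℚ) := cyclotomic.irreducible_rat (NeZero.pos N)
  have : NeZero ((N : ℕ) : ℚ) := ⟨Nat.cast_ne_zero.mpr (NeZero.ne N)⟩
  have h1 : cyclotomic N ℚ = minpoly ℚ ζ := hζ.minpoly_eq_cyclotomic_of_irreducible hirr
  have h2 : cyclotomic N ℚ = minpoly ℚ (ζ ^ a) :=
    (hζ.pow_of_coprime a ha).minpoly_eq_cyclotomic_of_irreducible hirr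
  have h3 : minpoly ℚ (ζ ^ a) = minpoly ℚ ζ := h2.symm.trans h1
  have hn := normal_algebraicClosure_rat
  obtain ⟨σ, hσ⟩ := (Normal.minpoly_eq_iff_mem_orbit (F := ℚ) (E := Qb)).mp h3
  exact ⟨σ, hσ⟩

variable {k : Type} [Field k]

/-- **Surjectivity of the determinant onto `𝔽_p^×`.**  If `det ρbar` is the mod `p` cyclotomic
character then for every `a` prime to `p` some `σ ∈ G_ℚ` has `det (ρbar σ) = a`. -/
theorem exists_det_eq_natCast (p : ℕ) [Fact p.Prime] (ρbar : ResidualGaloisRep k)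
    (hdet : (GaloisRepAdic.ofResidualGaloisRep ρbar).DetIsCyclotomic p) {a : ℕ}
    (ha : a.Coprime p) : ∃ σ : Γℚ, LinearMap.det (ρbar.ρ σ) = (a : k) := by
  have hp : p.Prime := Fact.out
  have : NeZero p := ⟨hp.ne_zero⟩
  have hp0 : (p : k) = 0 := by
    have h := hdet.1
    rw [IsLocalRing.isField_iff_maximalIdeal_eq.mp (Field.toIsField k)] at h
    exact h
  have : NeZero ((p : ℕ) : Qb) := ⟨Nat.cast_ne_zero.mpr hp.ne_zero⟩
  obtain ⟨ζ, hζ⟩ : ∃ ζ : Qb, IsPrimitiveRoot ζ p := HasEnoughRootsOfUnity.exists_primitiveRoot Qb p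
  obtain ⟨σ, hσ⟩ := exists_map_eq_pow hζ ha
  refine ⟨σ, ?_⟩
  have hfix : ∀ μ : Qb, μ ^ p ^ 1 = 1 → σ μ = μ ^ a := by
    intro μ hμ
    rw [pow_one] at hμ
    obtain ⟨i, -, rfl⟩ := hζ.eq_pow_of_pow_eq_one hμ
    rw [map_pow, hσ, ← pow_mul, ← pow_mul, mul_comm]
  have h := hdet.2 1 σ a hfix
  have h0 : ((p ^ 1 : ℕ) : k) = 0 := by rw [pow_one]; exact hp0
  have h' : LinearMap.det ((GaloisRepAdic.ofResidualGaloisRep ρbar).ρ σ) - (a : k) = 0 := by
    rw [h0, Ideal.span_singleton_eq_bot.mpr rfl, Ideal.mem_bot] at h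
    exact h
  exact sub_eq_zero.mp h'

end Fermat.Agent.S56x.Kill.DetSurj
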