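/-
P-S56 (Taylor–Wiles primes), block (D), helper64: UNCONDITIONAL forms.

With `(T)` proved (`Group/SylowTorus.tStatement`, helper68) the group-theoretic statement (GT) and
the choice of `σ` hold without any open hypothesis:

* `gtStatement` : matrix form, `ρ : G →* GL₂(k)`, `k` finite of odd characteristic;
* `exists_good_sigma`, `exists_good_sigma_charpoly` : (GOODSIGMA) in matrix form;
* `gtStatement_matRep` : `EndKill.GTStatement (matRep b ρbar.ρ)` from the frozen hypotheses of S56;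
* `exists_prime_kill_ad0` : the final (KILL) statement of `Kill/Main.lean` without `hGT`.
-/
import Fermat.Agent.S56x.Group.SylowTorus
import Fermat.Agent.S56x.Kill.FinalPrelude
import Fermat.Agent.S56x.Kill.Main

set_option autoImplicit false

open Matrix Polynomial groupCohomology ExtCitation

namespace Fermat.Agent.S56x.Kill.Unconditional

open Fermat.Agent.S56x.Group Fermat.Agent.S56x.Group.SigmaChoice
  Fermat.Agent.S56x.Group.EndAdapter

local notation "Qb" => AlgebraicClosure ℚ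
local notation "Γℚ" => (AlgebraicClosure ℚ ≃ₐ[ℚ] AlgebraicClosure ℚ)

section matrix

variable {k : Type*} [Field k] {K : Type*} [Field K] [Algebra k K] {G : Type*} [Group G]

/-- `(T)` for all conjugates of `kerLift ρ`. -/
theorem tStatement_kerLift {p : ℕ} [Fact p.Prime] [CharP k p] [Finite k] (hp2 : p ≠ 2)
    (ρ : G →* GL (Fin 2) k) (g₀ : GL (Fin 2) k) :
    TStatement p (conjRep g₀ (QuotientGroup.kerLift ρ)) :=
  tStatement hp2 (conjRep_injective g₀ (QuotientGroup.kerLift_injective ρ))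

/-- **(GT), unconditional matrix form.**  `k` finite of odd characteristic `p`,
`ρ : G →* GL₂(k)` without stable line over `K` on `G` and on its subgroups of index two, and some
`det (ρ g)` is not a square of the prime field.  Then every trace-zero cocycle (twisted adjoint
action) vanishing on `ker ρ` is a coboundary. -/
theorem gtStatement [IsAlgClosed K] {p : ℕ} [Fact p.Prime] [CharP k p] [Finite k]
    (hp2 : p ≠ 2) (ρ : G →* GL (Fin 2) k)
    (hG : ¬ StableLineOver K ρ ⊤)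
    (hH : ∀ H : Subgroup G, H.index = 2 → ¬ StableLineOver K ρ H)
    (hns : ∃ g : G, ∀ j : ℕ,
      (j : k) ^ 2 ≠ ((ρ g : GL (Fin 2) k) : Matrix (Fin 2) (Fin 2) k).det)
    (ψ : G → Matrix (Fin 2) (Fin 2) k) (hψ : IsCocycle ρ ψ) (htr : ∀ g, (ψ g).trace = 0)
    (hker : ∀ ν : G, ρ ν = 1 → ψ ν = 0) : IsCoboundary ρ ψ :=
  Final.gtStatement_of_T (K := K) hp2 ρ hG hH hns (tStatement_kerLift hp2 ρ) ψ hψ htr hker

/-- **(GOODSIGMA), unconditional matrix form.** -/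
theorem exists_good_sigma [IsAlgClosed K] {p : ℕ} [Fact p.Prime] [CharP k p] [Finite k]
    (hp2 : p ≠ 2) {Z : Type*} [CommGroup Z] [IsCyclic Z] (ρ : G →* GL (Fin 2) k) (χ : G →* Z)
    (hdet : ∀ σ : G, χ σ = 1 → (ρ σ : Matrix (Fin 2) (Fin 2) k).det = 1)
    (hG : ¬ StableLineOver K ρ ⊤)
    (hH : ∀ H : Subgroup G, H.index = 2 → ¬ StableLineOver K ρ H)
    (hns : ∃ g : G, ∀ j : ℕ,
      (j : k) ^ 2 ≠ ((ρ g : GL (Fin 2) k) : Matrix (Fin 2) (Fin 2) k).det)
    {ψ : G → Matrix (Fin 2) (Fin 2) k} (hψ : IsCocycle ρ ψ) (htr : ∀ g, (ψ g).trace = 0)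
    (hncob : ¬ IsCoboundary ρ ψ) :
    ∃ σ : G, χ σ = 1 ∧ disc (ρ σ : Matrix (Fin 2) (Fin 2) k) ≠ 0 ∧
      ∀ B : Matrix (Fin 2) (Fin 2) k, adTwMat (ρ σ) B - B ≠ ψ σ :=
  Final.exists_good_sigma_of_T (K := K) hp2 ρ χ hdet hG hH hns (tStatement_kerLift hp2 ρ)
    hψ htr hncob

/-- (GOODSIGMA), unconditional, with the two distinct eigenvalues exhibited. -/
theorem exists_good_sigma_charpoly [IsAlgClosed K] {p : ℕ} [Fact p.Prime] [CharP k p] [Finite k]
    (hp2 : p ≠ 2) {Z : Type*} [CommGroup Z] [IsCyclic Z] (ρ : G →* GL (Fin 2) k) (χ : G →* Z)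
    (hdet : ∀ σ : G, χ σ = 1 → (ρ σ : Matrix (Fin 2) (Fin 2) k).det = 1)
    (hG : ¬ StableLineOver K ρ ⊤)
    (hH : ∀ H : Subgroup G, H.index = 2 → ¬ StableLineOver K ρ H)
    (hsplit : ∀ g : G, ∃ α β : k,
      (ρ g : Matrix (Fin 2) (Fin 2) k).charpoly = (X - C α) * (X - C β))
    (hns : ∃ g : G, ∀ j : ℕ,
      (j : k) ^ 2 ≠ ((ρ g : GL (Fin 2) k) : Matrix (Fin 2) (Fin 2) k).det)
    {ψ : G → Matrix (Fin 2) (Fin 2) k} (hψ : IsCocycle ρ ψ) (htr : ∀ g, (ψ g).trace = 0)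
    (hncob : ¬ IsCoboundary ρ ψ) :
    ∃ σ : G, χ σ = 1 ∧ (∃ α β : k, α ≠ β ∧
        (ρ σ : Matrix (Fin 2) (Fin 2) k).charpoly = (X - C α) * (X - C β)) ∧
      ∀ B : Matrix (Fin 2) (Fin 2) k, adTwMat (ρ σ) B - B ≠ ψ σ := by
  obtain ⟨σ, hσ, hd, hB⟩ :=
    exists_good_sigma (K := K) hp2 ρ χ hdet hG hH hns hψ htr hncob
  obtain ⟨α, β, hαβ⟩ := hsplit σ
  exact ⟨σ, hσ, ⟨α, β, ne_of_charpoly_eq hd hαβ, hαβ⟩, hB⟩

end matrix

section prelude

variable {k : Type} [Field k]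

/-- **(GT) for `ρbar`, unconditional**: from the frozen hypotheses of S56 only. -/
theorem gtStatement_matRep (p : ℕ) [Fact p.Prime] (hp2 : p ≠ 2) [Finite k]
    (ρbar : ResidualGaloisRep k) (habs : ρbar.IsAbsolutelyIrreducible)
    (hdet : (GaloisRepAdic.ofResidualGaloisRep ρbar).DetIsCyclotomic p)
    (hTW : ∀ (K : Type) [Field K] [Algebra k K] (G : Subgroup Γℚ), G.index = 2 →
      ∀ V : Submodule K (ρbar.baseChange K).V,
        (∀ σ ∈ G, ∀ x ∈ V, (ρbar.baseChange K).ρ σ x ∈ V) → V = ⊥ ∨ V = ⊤)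
    (b : Module.Basis (Fin 2) k ρbar.V) :
    EndKill.GTStatement (matRep b ρbar.ρ) := by
  have := FinalPrelude.charP_of_detIsCyclotomic p ρbar hdet
  exact FinalPrelude.gtStatement_matRep p hp2 ρbar habs hdet hTW b
    (tStatement_kerLift hp2 (matRep b ρbar.ρ))

/-- **(KILL), unconditional**: `Kill/Main.exists_prime_kill_ad0` without the hypothesis `hGT`. -/
theorem exists_prime_kill_ad0 (p : ℕ) [Fact p.Prime] [Finite k] [Algebra (ZMod p) k]
    (hp2 : p ≠ 2)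
    (ρbar : ResidualGaloisRep k) (habs : ρbar.IsAbsolutelyIrreducible)
    (hdet : (GaloisRepAdic.ofResidualGaloisRep ρbar).DetIsCyclotomic p)
    (hsplit : ∀ σ : Γℚ, ∃ α β : k, LinearMap.charpoly (ρbar.ρ σ) = (X - C α) * (X - C β))
    (hTW : ∀ (K : Type) [Field K] [Algebra k K] (G : Subgroup Γℚ), G.index = 2 →
      ∀ V : Submodule K (ρbar.baseChange K).V,
        (∀ σ ∈ G, ∀ x ∈ V, (ρbar.baseChange K).ρ σ x ∈ V) → V = ⊥ ∨ V = ⊤)
    (b : Module.Basis (Fin 2) k ρbar.V) (S : Finset Nat.Primes) (n : ℕ) (T : Finset ℕ)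
    {x : H1 (Fermat.Agent.S56x.GW.tateDual p
      (Fermat.Agent.S56x.Dict.ad0Rep p (Fermat.Agent.S53.toMatResOfBasis ρbar b)))}
    (hx : x ∈ continuousH1S S (Fermat.Agent.S56x.GW.tateDual p
      (Fermat.Agent.S56x.Dict.ad0Rep p (Fermat.Agent.S53.toMatResOfBasis ρbar b))))
    (hx0 : x ≠ 0) :
    ∃ q : Nat.Primes, (q : ℕ) ∉ T ∧ (q : ℕ) ≠ p ∧ p ^ (n + 1) ∣ (q : ℕ) - 1 ∧
      (∀ P : ValuationSubring Qb, P.LiesOverPrime (q : ℕ) →
        ∀ φ : Γℚ, P.IsFrobeniusAt φ (q : ℕ) →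
          ∃ α β : k, α ≠ β ∧ LinearMap.charpoly (ρbar.ρ φ) = (X - C α) * (X - C β)) ∧
      (locRes (fun q : Nat.Primes => primeLocalToGlobal q)
        (Fermat.Agent.S56x.GW.tateDual p
          (Fermat.Agent.S56x.Dict.ad0Rep p (Fermat.Agent.S53.toMatResOfBasis ρbar b))) q).hom x
        ≠ 0 :=
  Main.exists_prime_kill_ad0 p hp2 ρbar habs hdet hsplit hTW
    (gtStatement_matRep p hp2 ρbar habs hdet hTW (resBasis ρbar)) b S n T hx hx0

end prelude

end Fermat.Agent.S56x.Kill.Unconditional
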